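/-
S36lib / Fin / ChartFam  (helper3)

**The chart families of the generic fibre over the fixed field** (service (s2) for the modular
instance of the thick datum).

`H ≤ G_ℚ` a subgroup, `K = fixK H`, `F = fixF N H ⊆ FB N` (helper1's `Desc2/SpeiserBar`).  For a
divisor `E` of `FB N` (over `ℚ̄`) put `fixL E := L(E) ∩ F`, a `K`-subspace of `F`.  For `H`-stable `E`:
`dim_K fixL E = dim_ℚ̄ L(E)` (Speiser), so Riemann's inequality holds over `K`.

For two `H`-stable effective divisors `P₁ P₂` with disjoint supports: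
* `chartL a b := fixL (a P₁ + b P₂)`                       -- the family `𝓛` of `Thick.ThickDatum`;
* `kumDiv n z := ⌊div z / n⌋`, `chartE n z a b := fixL (kumDiv n z + a P₁ + b P₂)`, TOTAL in `z`
                                                            -- the family `𝓔` of a Kummer function;
* `IsKumFn n z := z ≠ 0 ∧ ∃ E, n E = div z`;
with all the fields of `Thick.ThickCtx` / `Thick.KummerFamily` / `J.KummerSystem` concerning them.
-/
import Mathlib
import Fermat.Agent.S36lib.Fin.ClassLevel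
import Fermat.Agent.S18lib.Setup.DivLemmas
import Fermat.Agent.LSb.Core.CechChart

set_option autoImplicit false
set_option linter.unusedSectionVars false
set_option linter.unusedVariables false

noncomputable section

namespace Fermat.Agent.S36lib.Fin

open AlgebraicCurve ModularCurve AlgebraicCurve.SemilinearAut Module
open Fermat.Agent.S29lib Fermat.Agent.S29lib.GH Fermat.Agent.S18lib Fermat.Agent.S18lib.Cech
open Fermat.Agent.S37lib.HeckeInst
open Fermat.Agent.LSb.Core (lin2 lin2_apply degree_lin2 lin2_zero_zero lin2_mono lin2_nonneg lin2_min)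
open Fermat.Agent.S36lib.Desc2 Fermat.Agent.S36lib.J Fermat.Agent.S36lib.Thick

local notation "Qb" => AlgebraicClosure ℚ
local notation "GQ" => (AlgebraicClosure ℚ ≃ₐ[ℚ] AlgebraicClosure ℚ)

variable {N : ℕ} {H : Subgroup GQ}

/-! ### stability -/

theorem galAutBar_inv (σ : GQ) : (galAutBar N σ)⁻¹ = galAutBar N σ⁻¹ :=
  (map_inv (arithmeticGalois (modularFunctionFieldFull N)) σ).symm

/-- pointwise form of stability -/
theorem IsStableDiv.apply_smul {E : Divisor Qb (FB N)} (hE : IsStableDiv N H E) {σ : GQ}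
    (hσ : σ ∈ H) (v : Place Qb (FB N)) : E (galAutBar N σ • v) = E v := by
  have h1 := hE σ⁻¹ (H.inv_mem hσ)
  have h2 := congrArg (fun D : Divisor Qb (FB N) => D v) h1
  simp only [divisor_smul_apply, galAutBar_inv, inv_inv] at h2
  exact h2

theorem isStableDiv_of_apply_smul {E : Divisor Qb (FB N)}
    (h : ∀ σ ∈ H, ∀ v : Place Qb (FB N), E (galAutBar N σ • v) = E v) : IsStableDiv N H E := by
  intro σ hσ
  ext v
  rw [divisor_smul_apply, galAutBar_inv]
  exact h σ⁻¹ (H.inv_mem hσ) v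

theorem IsStableDiv.add {E E' : Divisor Qb (FB N)} (hE : IsStableDiv N H E)
    (hE' : IsStableDiv N H E') : IsStableDiv N H (E + E') := by
  intro σ hσ
  rw [smul_add, hE σ hσ, hE' σ hσ]

theorem IsStableDiv.zsmul {E : Divisor Qb (FB N)} (hE : IsStableDiv N H E) (m : ℤ) :
    IsStableDiv N H (m • E) := by
  apply isStableDiv_of_apply_smul
  intro σ hσ v
  rw [Finsupp.smul_apply, Finsupp.smul_apply, hE.apply_smul hσ]

theorem IsStableDiv.lin2 {P₁ P₂ : Divisor Qb (FB N)} (h₁ : IsStableDiv N H P₁)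
    (h₂ : IsStableDiv N H P₂) (a b : ℤ) : IsStableDiv N H (lin2 P₁ P₂ a b) :=
  (h₁.zsmul a).add (h₂.zsmul b)

theorem isStableDiv_zero : IsStableDiv N H (0 : Divisor Qb (FB N)) := fun σ _ => smul_zero _

/-- the order of a fixed function is constant on `H`-orbits of places -/
theorem ord_smul_of_mem_fixF {f : FB N} (hf : f ∈ fixF N H) {σ : GQ} (hσ : σ ∈ H)
    (v : Place Qb (FB N)) : (galAutBar N σ • v).ord f = v.ord f := by
  have h := ord_smul (galAutBar N σ) v f
  rwa [mem_fixF.1 hf σ hσ] at h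

/-- Riemann–Roch spaces of stable divisors are stable -/
theorem rr_stable {E : Divisor Qb (FB N)} (hE : IsStableDiv N H E) :
    ∀ σ ∈ H, ∀ f ∈ riemannRochSpace E, galAutBar N σ • f ∈ riemannRochSpace E := by
  intro σ hσ f hf
  rw [mem_rr_iff] at hf ⊢
  intro w
  rcases eq_or_ne f 0 with rfl | hf0
  · left; exact smul_zero _
  right
  have h1 := (hf ((galAutBar N σ)⁻¹ • w)).resolve_left hf0
  have h2 := ord_smul (galAutBar N σ) ((galAutBar N σ)⁻¹ • w) f
  rw [smul_inv_smul] at h2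
  rw [h2]
  have h3 : E ((galAutBar N σ)⁻¹ • w) = E w := by
    rw [galAutBar_inv]
    exact hE.apply_smul (H.inv_mem hσ) w
  rwa [h3] at h1

/-! ### the fixed part of a Riemann–Roch space -/

variable (N H) in
/-- `L(E) ∩ fixF`, as a `K`-subspace of the fixed field -/
def fixL (E : Divisor Qb (FB N)) : Submodule (fixK H) (fixF N H) :=
  ((riemannRochSpace E).restrictScalars (fixK H)).comap (fixFIncl N H)

theorem mem_fixL {E : Divisor Qb (FB N)} {f : fixF N H} :
    f ∈ fixL N H E ↔ (f : FB N) ∈ riemannRochSpace E := Iff.rfl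

theorem fixL_mono {E E' : Divisor Qb (FB N)} (h : ∀ v, E v ≤ E' v) : fixL N H E ≤ fixL N H E' :=
  fun _ hf => rr_mono h hf

/-- **Speiser**: `dim_K (L(E) ∩ fixF) = dim_ℚ̄ L(E)` -/
theorem finrank_fixL {E : Divisor Qb (FB N)} (hE : IsStableDiv N H E) :
    finrank (fixK H) (fixL N H E) = finrank Qb (riemannRochSpace E) :=
  finrank_comap_fixF _ (rr_stable hE)

theorem finiteDimensional_fixL {g : ℕ} (hF : IsCurveOfGenus Qb (FB N) g)
    {E : Divisor Qb (FB N)} (hE : IsStableDiv N H E) :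
    FiniteDimensional (fixK H) (fixL N H E) := by
  have := hF.finiteDimensional E
  have := finiteDimensional_fixedPart (H := H) (riemannRochSpace E) (rr_stable hE)
  set e : fixL N H E →ₗ[fixK H] fixedPart H (riemannRochSpace E) :=
    { toFun := fun x => ⟨(x : fixF N H), mem_fixedPart.2 ⟨x.2, mem_fixF.1 (x : fixF N H).2⟩⟩
      map_add' := fun x y => rfl
      map_smul' := fun c x => rfl } with he
  have hinj : Function.Injective e := by
    intro x y hxy
    have := congrArg Subtype.val hxy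
    exact Subtype.ext (Subtype.ext this)
  exact Module.Finite.of_injective e hinj

/-- **Riemann's inequality over the fixed field** -/
theorem riemann_fixL {g : ℕ} (hF : IsCurveOfGenus Qb (FB N) g)
    {E : Divisor Qb (FB N)} (hE : IsStableDiv N H E) :
    Divisor.degree E + 1 - (g : ℤ) ≤ (finrank (fixK H) (fixL N H E) : ℤ) := by
  rw [finrank_fixL hE]
  exact hF.riemann_le E

/-! ### the hypotheses on the two chart divisors -/

/-- The hypotheses on the chart divisors `P₁ P₂` of `FB N`. -/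
structure ChartHyp (N : ℕ) (H : Subgroup GQ) (P₁ P₂ : Divisor Qb (FB N)) (g : ℕ) : Prop where
  hF : IsCurveOfGenus Qb (FB N) g
  P₁_nonneg : 0 ≤ P₁
  P₂_nonneg : 0 ≤ P₂
  disjoint : Disjoint P₁.support P₂.support
  stable₁ : IsStableDiv N H P₁
  stable₂ : IsStableDiv N H P₂

section Charts

variable {P₁ P₂ : Divisor Qb (FB N)} {g : ℕ}

variable (N H P₁ P₂) in
/-- the chart spaces `L(a P₁ + b P₂) ∩ fixF` -/
def chartL (a b : ℕ) : Submodule (fixK H) (fixF N H) := fixL N H (lin2 P₁ P₂ a b)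

theorem mem_chartL {a b : ℕ} {f : fixF N H} :
    f ∈ chartL N H P₁ P₂ a b ↔ (f : FB N) ∈ riemannRochSpace (lin2 P₁ P₂ a b) := Iff.rfl

namespace ChartHyp

variable (C : ChartHyp N H P₁ P₂ g)

include C

theorem stable_lin2 (a b : ℤ) : IsStableDiv N H (lin2 P₁ P₂ a b) := C.stable₁.lin2 C.stable₂ a b

theorem finiteDimensional_chartL (a b : ℕ) : FiniteDimensional (fixK H) (chartL N H P₁ P₂ a b) :=
  finiteDimensional_fixL C.hF (C.stable_lin2 a b)

theorem chartL_mono {a b a' b' : ℕ} (ha : a ≤ a') (hb : b ≤ b') :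
    chartL N H P₁ P₂ a b ≤ chartL N H P₁ P₂ a' b' :=
  fixL_mono (lin2_mono C.P₁_nonneg C.P₂_nonneg (by exact_mod_cast ha) (by exact_mod_cast hb))

theorem chartL_inter (a b a' b' : ℕ) :
    chartL N H P₁ P₂ a b ⊓ chartL N H P₁ P₂ a' b' ≤ chartL N H P₁ P₂ (min a a') (min b b') := by
  rintro f ⟨h, h'⟩
  rw [SetLike.mem_coe, mem_chartL] at h h'
  rw [mem_chartL]
  refine mem_rr_of_mem_of_mem h h' fun v => ?_
  have := lin2_min C.disjoint (a : ℤ) b a' b' v
  push_cast
  exact this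

theorem chartL_mul_mem {a b a' b' : ℕ} {f f' : fixF N H} (hf : f ∈ chartL N H P₁ P₂ a b)
    (hf' : f' ∈ chartL N H P₁ P₂ a' b') : f * f' ∈ chartL N H P₁ P₂ (a + a') (b + b') := by
  rw [mem_chartL] at hf hf' ⊢
  have h := mul_mem_rr hf hf'
  have e : lin2 P₁ P₂ (a : ℤ) b + lin2 P₁ P₂ (a' : ℤ) b' = lin2 P₁ P₂ ((a + a' : ℕ) : ℤ) (b + b' : ℕ) := by
    ext v
    rw [Finsupp.add_apply, lin2_apply, lin2_apply, lin2_apply]
    push_cast
    ring
  rw [e] at h
  exact h

theorem chartL_one_mem : (1 : fixF N H) ∈ chartL N H P₁ P₂ 0 0 := by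
  rw [mem_chartL]
  exact one_mem_rr (by
    intro v
    rw [Nat.cast_zero, lin2_zero_zero, Finsupp.zero_apply])

theorem degree_lin2_nat (a b : ℕ) : Divisor.degree (lin2 P₁ P₂ a b) =
    (a : ℤ) * Divisor.degree P₁ + b * Divisor.degree P₂ := degree_lin2 _ _ _ _

/-- Riemann's inequality for the chart spaces -/
theorem chartL_riemann (a b : ℕ) :
    (a : ℤ) * Divisor.degree P₁ + b * Divisor.degree P₂ + 1 - g ≤
      (finrank (fixK H) (chartL N H P₁ P₂ a b) : ℤ) := by
  have := riemann_fixL C.hF (C.stable_lin2 a b)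
  rwa [degree_lin2] at this

/-- `L(0) ∩ fixF = K` -/
theorem chartL_const00 [NeZero N] (f : fixF N H) (hf : f ∈ chartL N H P₁ P₂ 0 0) :
    ∃ c : fixK H, f = algebraMap (fixK H) (fixF N H) c := by
  rw [mem_chartL, Nat.cast_zero, lin2_zero_zero, C.hF.riemannRochSpace_zero] at hf
  obtain ⟨c, hc⟩ := Algebra.mem_bot.1 ((Subalgebra.mem_toSubmodule _).1 hf)
  have hmem : algebraMap Qb (FB N) c ∈ fixF N H := by rw [hc]; exact f.2
  obtain ⟨c', hc'⟩ := exists_fixK_of_mem_fixF hmem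
  refine ⟨c', Subtype.ext ?_⟩
  rw [← hc, ← hc']
  rfl

/-- a fixed function whose poles lie on the charts belongs to some chart space -/
theorem exists_mem_chartL (f : fixF N H)
    (hpoles : ∀ v : Place Qb (FB N), v.ord (f : FB N) < 0 → v ∈ P₁.support ∨ v ∈ P₂.support) :
    ∃ a b : ℕ, f ∈ chartL N H P₁ P₂ a b := by
  classical
  rcases eq_or_ne f 0 with rfl | hf0
  · exact ⟨0, 0, Submodule.zero_mem _⟩
  have hfF : (f : FB N) ≠ 0 := fun h => hf0 (Subtype.ext h)
  -- a bound for the pole orders on the (finite) supports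
  set m : ℕ := ∑ v ∈ P₁.support ∪ P₂.support, (v.ord (f : FB N)).natAbs with hm
  refine ⟨m, m, ?_⟩
  rw [mem_chartL, mem_rr_of_ne hfF]
  intro v
  rw [lin2_apply]
  have h1 : 0 ≤ P₁ v := by simpa using Finsupp.le_def.1 C.P₁_nonneg v
  have h2 : 0 ≤ P₂ v := by simpa using Finsupp.le_def.1 C.P₂_nonneg v
  by_cases hv : v.ord (f : FB N) < 0
  · have hmem : v ∈ P₁.support ∪ P₂.support := by
      rcases hpoles v hv with h | h
      · exact Finset.mem_union_left _ h
      · exact Finset.mem_union_right _ h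
    have hle : (v.ord (f : FB N)).natAbs ≤ m :=
      Finset.single_le_sum (f := fun w : Place Qb (FB N) => (w.ord (f : FB N)).natAbs)
        (fun _ _ => Nat.zero_le _) hmem
    have habs : -(v.ord (f : FB N)) ≤ (m : ℤ) := by
      have : ((v.ord (f : FB N)).natAbs : ℤ) ≤ (m : ℤ) := by exact_mod_cast hle
      omega
    rcases hpoles v hv with h | h
    · have h3 : 1 ≤ P₁ v := by
        have := Finsupp.mem_support_iff.1 h
        omega
      nlinarith
    · have h3 : 1 ≤ P₂ v := by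
        have := Finsupp.mem_support_iff.1 h
        omega
      nlinarith
  · push Not at hv
    have : 0 ≤ (m : ℤ) * P₁ v + (m : ℤ) * P₂ v :=
      add_nonneg (mul_nonneg (Nat.cast_nonneg m) h1) (mul_nonneg (Nat.cast_nonneg m) h2)
    omega

end ChartHyp

end Charts

/-! ### Kummer functions and their chart families -/

section Kummer

variable [NeZero N]

variable (N) in
/-- `⌊div z / n⌋` -/
def kumDiv (n : ℕ) (z : FB N) : Divisor Qb (FB N) :=
  haveI := hasPrincipalDivisors_FB N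
  Finsupp.mapRange (fun m : ℤ => m / (n : ℤ)) (by simp) (divOf (K := Qb) z)

theorem kumDiv_apply (n : ℕ) (z : FB N) (v : Place Qb (FB N)) :
    kumDiv N n z v = v.ord z / (n : ℤ) := by
  have := hasPrincipalDivisors_FB N
  rw [kumDiv, Finsupp.mapRange_apply, divOf_apply']

variable (H) in
/-- `z` is a Kummer function: `z ≠ 0` and `n ∣ div z` -/
def IsKumFn (n : ℕ) (z : fixF N H) : Prop :=
  z ≠ 0 ∧ ∃ E : Divisor Qb (FB N), ∀ v : Place Qb (FB N), (n : ℤ) * E v = v.ord (z : FB N)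

theorem IsKumFn.coe_ne_zero {n : ℕ} {z : fixF N H} (hz : IsKumFn H n z) : (z : FB N) ≠ 0 :=
  fun h => hz.1 (Subtype.ext h)

/-- for a Kummer function `n · kumDiv = div z` -/
theorem IsKumFn.mul_kumDiv {n : ℕ} (hn : n ≠ 0) {z : fixF N H} (hz : IsKumFn H n z)
    (v : Place Qb (FB N)) : (n : ℤ) * kumDiv N n (z : FB N) v = v.ord (z : FB N) := by
  obtain ⟨E, hE⟩ := hz.2
  have hnZ : (n : ℤ) ≠ 0 := by exact_mod_cast hn
  rw [kumDiv_apply, ← hE v, Int.mul_ediv_cancel_left _ hnZ]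

theorem IsKumFn.degree_kumDiv {n : ℕ} (hn : n ≠ 0) {z : fixF N H} (hz : IsKumFn H n z) :
    Divisor.degree (kumDiv N n (z : FB N)) = 0 := by
  have := hasPrincipalDivisors_FB N
  have hnZ : (n : ℤ) ≠ 0 := by exact_mod_cast hn
  have h1 : (n : ℤ) • kumDiv N n (z : FB N) = divOf (K := Qb) (z : FB N) := by
    ext v
    rw [Finsupp.smul_apply, smul_eq_mul, hz.mul_kumDiv hn v, divOf_apply']
  have h2 := congrArg Divisor.degree h1
  rw [map_zsmul, degree_divOf, smul_eq_mul] at h2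
  exact (mul_eq_zero.1 h2).resolve_left hnZ

theorem isStableDiv_kumDiv (n : ℕ) (z : fixF N H) : IsStableDiv N H (kumDiv N n (z : FB N)) := by
  apply isStableDiv_of_apply_smul
  intro σ hσ v
  rw [kumDiv_apply, kumDiv_apply, ord_smul_of_mem_fixF z.2 hσ]

theorem IsKumFn.mul {n : ℕ} {z z' : fixF N H} (hz : IsKumFn H n z) (hz' : IsKumFn H n z') :
    IsKumFn H n (z * z') := by
  obtain ⟨E, hE⟩ := hz.2
  obtain ⟨E', hE'⟩ := hz'.2
  refine ⟨mul_ne_zero hz.1 hz'.1, E + E', fun v => ?_⟩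
  show _ = v.ord ((z : FB N) * (z' : FB N))
  rw [v.ord_mul hz.coe_ne_zero hz'.coe_ne_zero, Finsupp.add_apply, mul_add, hE v, hE' v]

theorem IsKumFn.inv {n : ℕ} {z : fixF N H} (hz : IsKumFn H n z) : IsKumFn H n z⁻¹ := by
  obtain ⟨E, hE⟩ := hz.2
  refine ⟨inv_ne_zero hz.1, -E, fun v => ?_⟩
  show _ = v.ord ((z : FB N))⁻¹
  rw [v.ord_inv, Finsupp.neg_apply, mul_neg, hE v]

theorem isKumFn_const (n : ℕ) {c : fixK H} (hc : c ≠ 0) :
    IsKumFn H n (algebraMap (fixK H) (fixF N H) c) := by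
  refine ⟨(map_ne_zero _).2 hc, 0, fun v => ?_⟩
  rw [coe_algebraMap_fixF, ord_const, Finsupp.zero_apply, mul_zero]

theorem isKumFn_pow (n : ℕ) {w : fixF N H} (hw : w ≠ 0) : IsKumFn H n (w ^ n) := by
  have := hasPrincipalDivisors_FB N
  refine ⟨pow_ne_zero n hw, divOf (K := Qb) (w : FB N), fun v => ?_⟩
  show _ = v.ord ((w : FB N) ^ n)
  rw [ord_pow, divOf_apply']

/-- additivity of `kumDiv` on Kummer functions -/
theorem IsKumFn.kumDiv_mul {n : ℕ} (hn : n ≠ 0) {z z' : fixF N H} (hz : IsKumFn H n z)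
    (hz' : IsKumFn H n z') :
    kumDiv N n ((z * z' : fixF N H) : FB N) = kumDiv N n (z : FB N) + kumDiv N n (z' : FB N) := by
  have hnZ : (n : ℤ) ≠ 0 := by exact_mod_cast hn
  ext v
  apply mul_left_cancel₀ hnZ
  rw [(hz.mul hz').mul_kumDiv hn v, Finsupp.add_apply, mul_add, hz.mul_kumDiv hn v,
    hz'.mul_kumDiv hn v]
  show v.ord ((z : FB N) * (z' : FB N)) = _
  rw [v.ord_mul hz.coe_ne_zero hz'.coe_ne_zero]

variable {P₁ P₂ : Divisor Qb (FB N)} {g : ℕ}

variable (H P₁ P₂) in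
/-- the twisted chart spaces `L(⌊div z / n⌋ + a P₁ + b P₂) ∩ fixF` -/
def chartE (n : ℕ) (z : fixF N H) (a b : ℕ) : Submodule (fixK H) (fixF N H) :=
  fixL N H (kumDiv N n (z : FB N) + lin2 P₁ P₂ a b)

theorem mem_chartE {n : ℕ} {z : fixF N H} {a b : ℕ} {f : fixF N H} :
    f ∈ chartE H P₁ P₂ n z a b ↔
      (f : FB N) ∈ riemannRochSpace (kumDiv N n (z : FB N) + lin2 P₁ P₂ a b) := Iff.rfl

namespace ChartHyp

variable (C : ChartHyp N H P₁ P₂ g)

include C

theorem stable_chartDiv (n : ℕ) (z : fixF N H) (a b : ℕ) :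
    IsStableDiv N H (kumDiv N n (z : FB N) + lin2 P₁ P₂ a b) :=
  (isStableDiv_kumDiv n z).add (C.stable_lin2 a b)

theorem finiteDimensional_chartE (n : ℕ) (z : fixF N H) (a b : ℕ) :
    FiniteDimensional (fixK H) (chartE H P₁ P₂ n z a b) :=
  finiteDimensional_fixL C.hF (C.stable_chartDiv n z a b)

theorem chartE_mono (n : ℕ) (z : fixF N H) {a b a' b' : ℕ} (ha : a ≤ a') (hb : b ≤ b') :
    chartE H P₁ P₂ n z a b ≤ chartE H P₁ P₂ n z a' b' :=
  fixL_mono fun v => by
    rw [Finsupp.add_apply, Finsupp.add_apply]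
    have := lin2_mono C.P₁_nonneg C.P₂_nonneg (a := (a : ℤ)) (a' := a') (b := b) (b' := b')
      (by exact_mod_cast ha) (by exact_mod_cast hb) v
    omega

theorem chartE_inter (n : ℕ) (z : fixF N H) (a b a' b' : ℕ) :
    chartE H P₁ P₂ n z a b ⊓ chartE H P₁ P₂ n z a' b' ≤
      chartE H P₁ P₂ n z (min a a') (min b b') := by
  rintro f ⟨h, h'⟩
  rw [SetLike.mem_coe, mem_chartE] at h h'
  rw [mem_chartE]
  refine mem_rr_of_mem_of_mem h h' fun v => ?_
  have := lin2_min C.disjoint (a : ℤ) b a' b' v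
  rw [Finsupp.add_apply, Finsupp.add_apply, Finsupp.add_apply]
  push_cast
  rcases this with h1 | h1
  · left; omega
  · right; omega

theorem chartE_mul_mem (n : ℕ) (z : fixF N H) {a b a' b' : ℕ} {f h : fixF N H}
    (hf : f ∈ chartL N H P₁ P₂ a b) (hh : h ∈ chartE H P₁ P₂ n z a' b') :
    f * h ∈ chartE H P₁ P₂ n z (a + a') (b + b') := by
  rw [mem_chartL] at hf
  rw [mem_chartE] at hh ⊢
  have h1 := mul_mem_rr hf hh
  have e : lin2 P₁ P₂ (a : ℤ) b + (kumDiv N n (z : FB N) + lin2 P₁ P₂ (a' : ℤ) b') =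
      kumDiv N n (z : FB N) + lin2 P₁ P₂ ((a + a' : ℕ) : ℤ) (b + b' : ℕ) := by
    ext v
    simp only [Finsupp.add_apply, lin2_apply]
    push_cast
    ring
  rw [e] at h1
  exact h1

/-- `L(E + A) · L(E' + A') ⊆ L(E + E' + A + A')` -/
theorem chartE_mul {n : ℕ} (hn : n ≠ 0) {z z' : fixF N H} (hz : IsKumFn H n z)
    (hz' : IsKumFn H n z') {a b a' b' : ℕ} {h h' : fixF N H}
    (hh : h ∈ chartE H P₁ P₂ n z a b) (hh' : h' ∈ chartE H P₁ P₂ n z' a' b') :
    h * h' ∈ chartE H P₁ P₂ n (z * z') (a + a') (b + b') := by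
  rw [mem_chartE] at hh hh' ⊢
  have h1 := mul_mem_rr hh hh'
  have e : (kumDiv N n (z : FB N) + lin2 P₁ P₂ (a : ℤ) b) +
      (kumDiv N n (z' : FB N) + lin2 P₁ P₂ (a' : ℤ) b') =
      kumDiv N n ((z * z' : fixF N H) : FB N) + lin2 P₁ P₂ ((a + a' : ℕ) : ℤ) (b + b' : ℕ) := by
    rw [hz.kumDiv_mul hn hz']
    ext v
    simp only [Finsupp.add_apply, lin2_apply]
    push_cast
    ring
  rw [e] at h1
  exact h1

/-- `h · h₀ⁿ⁻¹ · z ∈ L(A + (n-1) A₀)` for `h ∈ L(E + A)`, `h₀ ∈ L(E + A₀)`, `n E = div z` -/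
theorem chartE_mixed_mem {n : ℕ} (hn : n ≠ 0) {z : fixF N H} (hz : IsKumFn H n z)
    {a b a' b' : ℕ} {h h₀ : fixF N H} (hh : h ∈ chartE H P₁ P₂ n z a b)
    (hh₀ : h₀ ∈ chartE H P₁ P₂ n z a' b') :
    h * h₀ ^ (n - 1) * z ∈ chartL N H P₁ P₂ (a + (n - 1) * a') (b + (n - 1) * b') := by
  have := hasPrincipalDivisors_FB N
  rw [mem_chartE] at hh hh₀
  rw [mem_chartL]
  have h1 := mul_mem_rr (mul_mem_rr hh (pow_mem_rr hh₀ (n - 1)))
    (mem_rr_neg_of_div (D := divOf (K := Qb) (z : FB N)) hz.coe_ne_zero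
      (fun v => divOf_apply' _ v))
  have hn1 : ((n - 1 : ℕ) : ℤ) = (n : ℤ) - 1 := by
    rw [Nat.cast_sub (Nat.one_le_iff_ne_zero.2 hn)]
    simp
  have e : (kumDiv N n (z : FB N) + lin2 P₁ P₂ (a : ℤ) b) +
      (n - 1) • (kumDiv N n (z : FB N) + lin2 P₁ P₂ (a' : ℤ) b') + -divOf (K := Qb) (z : FB N) =
      lin2 P₁ P₂ ((a + (n - 1) * a' : ℕ) : ℤ) (b + (n - 1) * b' : ℕ) := by
    ext v
    simp only [Finsupp.add_apply, Finsupp.neg_apply, Finsupp.smul_apply, lin2_apply, nsmul_eq_mul]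
    rw [divOf_apply', ← hz.mul_kumDiv hn v]
    push_cast
    rw [hn1]
    ring
  rw [e] at h1
  exact h1

/-- Riemann's inequality for the twisted chart spaces of a Kummer function -/
theorem chartE_riemann {n : ℕ} (hn : n ≠ 0) {z : fixF N H} (hz : IsKumFn H n z) (a b : ℕ) :
    (a : ℤ) * Divisor.degree P₁ + b * Divisor.degree P₂ + 1 - g ≤
      (finrank (fixK H) (chartE H P₁ P₂ n z a b) : ℤ) := by
  have := riemann_fixL C.hF (C.stable_chartDiv n z a b)
  rwa [map_add, hz.degree_kumDiv hn, zero_add, degree_lin2] at this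

end ChartHyp

end Kummer

/-! ### packaging for a thick datum whose chart family is `chartL` -/

section Package

variable [NeZero N] {P₁ P₂ : Divisor Qb (FB N)} {g : ℕ}
variable {R : ValuationSubring (fixK H)}
variable {F₁ F₂ F₃ : Type*} [Field F₁] [Field F₂] [Field F₃]
variable [Algebra (IsLocalRing.ResidueField R) F₁] [Algebra (IsLocalRing.ResidueField R) F₂]
variable [Algebra (IsLocalRing.ResidueField R) F₃]

/-- the thick datum `D` on `fixF N H` has the chart family `chartL` of `(P₁, P₂)` -/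
structure HasCharts (D : ThickDatum R (fixF N H) F₁ F₂ F₃) (P₁ P₂ : Divisor Qb (FB N)) :
    Prop where
  𝓛_eq : ∀ a b, D.𝓛 a b = chartL N H P₁ P₂ a b
  d₁_eq : (D.d₁ : ℤ) = Divisor.degree P₁
  d₂_eq : (D.d₂ : ℤ) = Divisor.degree P₂

variable {D : ThickDatum R (fixF N H) F₁ F₂ F₃}

/-- the Kummer family of a Kummer function -/
def kummerFamily (C : ChartHyp N H P₁ P₂ g) (hD : HasCharts D P₁ P₂) {n : ℕ} (hn : n ≠ 0)
    (z : fixF N H) (hz : IsKumFn H n z) : KummerFamily D g n z where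
  𝓔 := chartE H P₁ P₂ n z
  finiteDimensional := C.finiteDimensional_chartE n z
  mono := fun ha hb => C.chartE_mono n z ha hb
  inter := C.chartE_inter n z
  mul_mem := fun {a b a' b' f h} hf hh => by
    rw [hD.𝓛_eq] at hf
    exact C.chartE_mul_mem n z hf hh
  mixed_mem := fun {a b a' b' h h₀} hh hh₀ => by
    rw [hD.𝓛_eq]
    exact C.chartE_mixed_mem hn hz hh hh₀
  riemann := fun a b => by
    rw [hD.d₁_eq, hD.d₂_eq]
    exact C.chartE_riemann hn hz a b

/-- **the Kummer system** of the fixed field (interface `J/Setup`) -/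
def kummerSystem (C : ChartHyp N H P₁ P₂ g) (hD : HasCharts D P₁ P₂) {n : ℕ} (hn : n ≠ 0) :
    KummerSystem D g n where
  IsKum := IsKumFn H n
  𝓔 := chartE H P₁ P₂ n
  fam := fun z hz => kummerFamily C hD hn z hz
  fam_𝓔 := fun _ _ => rfl
  ne_zero := fun _ hz => hz.1
  mul := fun _ _ hz hz' => hz.mul hz'
  inv := fun _ hz => hz.inv
  const := fun _ hc => isKumFn_const n hc
  npow := fun _ hw => isKumFn_pow n hw
  𝓔_mul := fun _ _ hz hz' _ _ _ _ _ _ hh hh' => C.chartE_mul hn hz hz' hh hh'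

@[simp] theorem kummerSystem_isKum (C : ChartHyp N H P₁ P₂ g) (hD : HasCharts D P₁ P₂) {n : ℕ}
    (hn : n ≠ 0) (z : fixF N H) : (kummerSystem C hD hn).IsKum z ↔ IsKumFn H n z := Iff.rfl

/-! the chart fields of `ThickCtx` -/

namespace HasCharts

variable (hD : HasCharts D P₁ P₂) (C : ChartHyp N H P₁ P₂ g)

include hD C

theorem finiteDimensional (a b : ℕ) : FiniteDimensional (fixK H) (D.𝓛 a b) := by
  rw [hD.𝓛_eq]; exact C.finiteDimensional_chartL a b

theorem mono {a b a' b' : ℕ} (ha : a ≤ a') (hb : b ≤ b') : D.𝓛 a b ≤ D.𝓛 a' b' := by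
  rw [hD.𝓛_eq, hD.𝓛_eq]; exact C.chartL_mono ha hb

theorem inter (a b a' b' : ℕ) : D.𝓛 a b ⊓ D.𝓛 a' b' ≤ D.𝓛 (min a a') (min b b') := by
  rw [hD.𝓛_eq, hD.𝓛_eq, hD.𝓛_eq]; exact C.chartL_inter a b a' b'

theorem mul_mem {a b a' b' : ℕ} {f f' : fixF N H} (hf : f ∈ D.𝓛 a b) (hf' : f' ∈ D.𝓛 a' b') :
    f * f' ∈ D.𝓛 (a + a') (b + b') := by
  rw [hD.𝓛_eq] at hf hf' ⊢; exact C.chartL_mul_mem hf hf'

theorem one_mem : (1 : fixF N H) ∈ D.𝓛 0 0 := by
  rw [hD.𝓛_eq]; exact C.chartL_one_mem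

theorem riemann (a b : ℕ) :
    (a : ℤ) * D.d₁ + b * D.d₂ + 1 - g ≤ (finrank (fixK H) (D.𝓛 a b) : ℤ) := by
  rw [hD.𝓛_eq, hD.d₁_eq, hD.d₂_eq]; exact C.chartL_riemann a b

theorem const00 (f : fixF N H) (hf : f ∈ D.𝓛 0 0) :
    ∃ c : fixK H, f = algebraMap (fixK H) (fixF N H) c := by
  rw [hD.𝓛_eq] at hf; exact C.chartL_const00 f hf

theorem unif_mem_chart
    (hpoles : ∀ v : Place Qb (FB N), v.ord (D.ϖ : FB N) < 0 → v ∈ P₁.support ∨ v ∈ P₂.support) :
    ∃ a b : ℕ, D.ϖ ∈ D.𝓛 a b := by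
  obtain ⟨a, b, h⟩ := C.exists_mem_chartL D.ϖ hpoles
  exact ⟨a, b, by rw [hD.𝓛_eq]; exact h⟩

end HasCharts

end Package

end Fermat.Agent.S36lib.Fin
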