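/-
S36lib / Fin / ChartInst  (helper3)

The chart hypotheses `Fin.ChartHyp` for the concrete chart divisors
`P₁ = (y)_∞`, `P₂ = (y - c)_0` of a fixed function `y ∈ fixF N H` and a fixed constant `c ∈ fixK H`
(modular instance: `y = j`, `c = c₀` an inertia-fixed constant).
-/
import Mathlib
import Fermat.Agent.S36lib.Fin.ChartFam
import Fermat.Agent.S18lib.Setup.DatumFibre
import Fermat.Agent.LSb.Old.Fields

set_option autoImplicit false
set_option linter.unusedSectionVars false
set_option linter.unusedVariables false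

noncomputable section

namespace Fermat.Agent.S36lib.Fin

open AlgebraicCurve ModularCurve AlgebraicCurve.SemilinearAut Module
open Fermat.Agent.S29lib Fermat.Agent.S29lib.GH Fermat.Agent.S18lib
open Fermat.Agent.S37lib.HeckeInst
open Fermat.Agent.S36lib.Desc2

local notation "Qb" => AlgebraicClosure ℚ
local notation "GQ" => (AlgebraicClosure ℚ ≃ₐ[ℚ] AlgebraicClosure ℚ)

variable {N : ℕ} [NeZero N] {H : Subgroup GQ}

/-- the polar divisor of a fixed function is stable -/
theorem isStableDiv_polesOf {f : FB N} (hf : f ∈ fixF N H) :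
    haveI := hasPrincipalDivisors_FB N
    IsStableDiv N H (polesOf (K := Qb) f) := by
  have := hasPrincipalDivisors_FB N
  apply isStableDiv_of_apply_smul
  intro σ hσ v
  rw [polesOf_apply, polesOf_apply, ord_smul_of_mem_fixF hf hσ]

/-- the divisor of zeros of a fixed function is stable -/
theorem isStableDiv_zerosOf {f : FB N} (hf : f ∈ fixF N H) :
    haveI := hasPrincipalDivisors_FB N
    IsStableDiv N H (zerosOf (K := Qb) f) := by
  have := hasPrincipalDivisors_FB N
  apply isStableDiv_of_apply_smul
  intro σ hσ v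
  rw [zerosOf_apply, zerosOf_apply, ord_smul_of_mem_fixF hf hσ]

/-- **the chart hypotheses for `P₁ = (y)_∞`, `P₂ = (y - c)_0`**, `y` a fixed function, `c` a fixed
constant -/
theorem chartHyp_polesOf_zerosOf {g : ℕ} (hF : IsCurveOfGenus Qb (FB N) g) (y : fixF N H)
    (c : fixK H) :
    haveI := hasPrincipalDivisors_FB N
    ChartHyp N H (polesOf (K := Qb) (y : FB N))
      (zerosOf (K := Qb) ((y : FB N) - algebraMap Qb (FB N) (algebraMap (fixK H) Qb c))) g := by
  have := hasPrincipalDivisors_FB N
  refine ⟨hF, polesOf_nonneg _, zerosOf_nonneg _,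
    LSb.Old.disjoint_support_polesOf_zerosOf_sub _ _, isStableDiv_polesOf y.2, ?_⟩
  have hmem : (y : FB N) - algebraMap Qb (FB N) (algebraMap (fixK H) Qb c) ∈ fixF N H :=
    (fixF N H).sub_mem y.2 (algebraMap_mem_fixF c)
  exact isStableDiv_zerosOf hmem

end Fermat.Agent.S36lib.Fin
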