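/-
S36lib / Fin / CuspInst  (helper3)

**Functions regular off the cusps** (`LSb.Unit.regAway ℚ̄ j`) **and the chart spaces `𝓛 a 0`.**

* `map_mem_regAway`   : a `ℚ̄`-algebra homomorphism `ψ : FBar N → FBar N'` with `ψ j` regular off the
  poles of `j` maps `regAway j` into `regAway j`;
* `heckeAlphaBar_mem_regAway`, `heckeBetaBar_mem_regAway` : the two degeneracy maps `N → N q`;
* `exists_mem_chartL_of_regAway` : a fixed function regular off the poles of `y` lies in
  `chartL N H (y)_∞ P₂ a 0` for some `a`;  `mem_regAway_of_mem_chartL` : the converse;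
* the `K`-rational modular units `X0K = Δ(t)/Δ(t^q)`, `Y0K = q¹² Δ(t^q)/Δ(t)` of `fixF (M q) H`.
-/
import Mathlib
import Fermat.Agent.S36lib.Fin.ChartInst
import Fermat.Agent.S36lib.Norm.ChartNorm
import Fermat.Agent.S36lib.Reg.WqUnit
import Fermat.Agent.LSb.Old.Lift

set_option autoImplicit false
set_option linter.unusedSectionVars false
set_option linter.unusedVariables false
set_option linter.style.haveILetI false

noncomputable section

namespace Fermat.Agent.S36lib.Fin

open AlgebraicCurve ModularCurve Module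
open Fermat.Agent.S29lib Fermat.Agent.S29lib.GH Fermat.Agent.S18lib
open Fermat.Agent.S37lib.HeckeInst
open Fermat.Agent.S36lib.Desc2
open Fermat.Agent.ProgramR
open Fermat.Agent.LSb.Unit (regAway mem_regAway self_mem_regAway algebraMap_mem_regAway)
open Fermat.Agent.LSb.Core (lin2 lin2_apply)

local notation "Qb" => AlgebraicClosure ℚ
local notation "GQ" => (AlgebraicClosure ℚ ≃ₐ[ℚ] AlgebraicClosure ℚ)

/-! ### transport of `regAway j` -/

section Transport

variable {N N' : ℕ} [NeZero N] [NeZero N']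

/-- a `ℚ̄`-algebra homomorphism with `ψ j` regular off the cusps preserves regularity off the cusps -/
theorem map_mem_regAway (ψ : FBar N →ₐ[Qb] FBar N')
    (hψ : ψ (Gin0.jF N) ∈ regAway Qb (Gin0.jF N')) {f : FBar N}
    (hf : f ∈ regAway Qb (Gin0.jF N)) : ψ f ∈ regAway Qb (Gin0.jF N') := by
  have h1 : LSb.Old.IsIntegralOver Qb (Gin0.jF N) f :=
    LSb.Old.isIntegralOver_of_forall_place (Gin0.jF N) (Gin0.transcendental_jF N)
      (fun v hv => FF.ord_nonneg_of_mem v (hf v (FF.mem_of_ord_nonneg v hv)))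
  have h2 := LSb.Old.IsIntegralOver.map ψ h1
  intro Q hQ
  exact LSb.Old.mem_place_of_isIntegralOver Q (hψ Q hQ) h2

variable (N) (q : ℕ) [NeZero q] [Fact q.Prime]

/-- `α : N → N q` preserves regularity off the cusps -/
theorem heckeAlphaBar_mem_regAway {f : FBar N} (hf : f ∈ regAway Qb (Gin0.jF N)) :
    heckeAlphaBar Qb N q f ∈ regAway Qb (Gin0.jF (N * q)) := by
  refine map_mem_regAway (heckeAlphaBar Qb N q) ?_ hf
  rw [Norm.heckeAlphaBar_jF]
  exact self_mem_regAway _

/-- `β : N → N q` preserves regularity off the cusps -/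
theorem heckeBetaBar_mem_regAway {f : FBar N} (hf : f ∈ regAway Qb (Gin0.jF N)) :
    heckeBetaBar Qb N q f ∈ regAway Qb (Gin0.jF (N * q)) := by
  refine map_mem_regAway (heckeBetaBar Qb N q) ?_ hf
  exact LSb.Unit.jBeta_mem_regAway (M := N) (q := q)

end Transport

/-! ### the chart spaces `𝓛 a 0` -/

section Chart

variable {N : ℕ} [NeZero N] {H : Subgroup GQ}

/-- a fixed function regular off the poles of `y` lies in some `𝓛 a 0` -/
theorem exists_mem_chartL_of_regAway (y : FB N) (P₂ : Divisor Qb (FB N)) (f : fixF N H)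
    (hf : (f : FB N) ∈ regAway Qb y) :
    haveI := hasPrincipalDivisors_FB N
    ∃ a : ℕ, f ∈ chartL N H (polesOf (K := Qb) y) P₂ a 0 := by
  have := hasPrincipalDivisors_FB N
  obtain ⟨m, hm⟩ := LSb.Old.exists_mem_rr_smul_polesOf (K := Qb) y (f : FB N)
    (fun Q hQ => FF.ord_nonneg_of_mem Q (hf Q (FF.mem_of_ord_nonneg Q hQ)))
  refine ⟨m, ?_⟩
  rw [mem_chartL]
  have e : lin2 (polesOf (K := Qb) y) P₂ (m : ℕ) ((0 : ℕ) : ℤ) = (m : ℤ) • polesOf (K := Qb) y := by
    ext v
    rw [lin2_apply, Finsupp.smul_apply, smul_eq_mul, Nat.cast_zero, zero_mul, add_zero]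
  rw [e]
  exact hm m le_rfl

/-- conversely the elements of `𝓛 a 0` are regular off the poles of `y` -/
theorem mem_regAway_of_mem_chartL (y : FB N) (P₂ : Divisor Qb (FB N)) (f : fixF N H) (a : ℕ)
    (hf : haveI := hasPrincipalDivisors_FB N
      f ∈ chartL N H (polesOf (K := Qb) y) P₂ a 0) :
    (f : FB N) ∈ regAway Qb y := by
  have := hasPrincipalDivisors_FB N
  rw [mem_chartL] at hf
  have e : lin2 (polesOf (K := Qb) y) P₂ (a : ℕ) ((0 : ℕ) : ℤ) = (a : ℤ) • polesOf (K := Qb) y := by
    ext v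
    rw [lin2_apply, Finsupp.smul_apply, smul_eq_mul, Nat.cast_zero, zero_mul, add_zero]
  rw [e] at hf
  exact Norm.mem_regAway_of_mem_rr a hf

end Chart

end Fermat.Agent.S36lib.Fin
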