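/-
S36lib / Fin / UnitsK  (helper3)

**The `K`-rational modular units of level `M q`**: `X0K = Δ(t)/Δ(t^q)`, `Y0K = q¹² Δ(t^q)/Δ(t)` as
elements of the fixed field `fixF (M q) H` (any `H`: the `t`-expansions are rational), with

* `X0K_mul_Y0K : X0K * Y0K = q ^ 12`;
* regularity off the cusps of `X0K`, `Y0K` and their inverses;
* for `H = I` the inertia group, the reductions for helper1's `K`-rational Gauss data of level
  `M q`:  `gaussTwoK.redF Y0K = H₂`,  `gaussOneK.redF (Y0K / q¹²) = H₂⁻¹`  (`H₂ = Δ̄(t)/Δ̄(t^q)`, the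
  Hasse function), `H₂ ≠ 0`.

These are the hypotheses `hXY hY₁ hY₂ hH` of `Fin.glueAt_of_rows` and of helper8's `Reg.Rows.regData`.
-/
import Mathlib
import Fermat.Agent.S36lib.Fin.CuspInst
import Fermat.Agent.S36lib.Desc2.Places

set_option autoImplicit false
set_option linter.unusedSectionVars false
set_option linter.unusedVariables false
set_option linter.style.haveILetI false

noncomputable section

namespace Fermat.Agent.S36lib.Fin

open AlgebraicCurve ModularCurve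
open Fermat.Agent.S29lib Fermat.Agent.S29lib.GH Fermat.Agent.S18lib
open Fermat.Agent.S37lib.HeckeInst
open Fermat.Agent.S36lib.Desc Fermat.Agent.S36lib.Desc2
open Fermat.Agent.LSb Fermat.Agent.LSb.Unit Fermat.Agent.LSb.Val

local notation "Qb" => AlgebraicClosure ℚ
local notation "GQ" => (AlgebraicClosure ℚ ≃ₐ[ℚ] AlgebraicClosure ℚ)

section Level

variable (N : ℕ) [NeZero N] (p : ℕ) [Fact p.Prime] (H : Subgroup GQ)

/-- `Δ(t)/Δ(t^p)` is fixed by the coefficientwise Galois action -/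
theorem X0F_mem_fixF (hpN : p ∣ N) : X0F N p hpN ∈ fixF N H := by
  rw [mem_fixF]
  intro σ _
  show arithmeticRingAut (modularFunctionFieldFull N) σ (X0F N p hpN) = X0F N p hpN
  apply Subtype.ext
  show coeffMap (σ : Qb →+* Qb) (X0 Qb p) = X0 Qb p
  exact coeffMap_X0 p _

/-- `p¹² Δ(t^p)/Δ(t)` is fixed by the coefficientwise Galois action -/
theorem Y0F_mem_fixF (hpN : p ∣ N) : Y0F N p hpN ∈ fixF N H := by
  rw [mem_fixF]
  intro σ _
  show arithmeticRingAut (modularFunctionFieldFull N) σ (Y0F N p hpN) = Y0F N p hpN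
  apply Subtype.ext
  show coeffMap (σ : Qb →+* Qb) (Y0 Qb p) = Y0 Qb p
  exact S28lib.BrickB.coeffMap_gInf _ p

end Level

section Units

variable (M q : ℕ) [NeZero M] [NeZero q] [hq : Fact q.Prime] (H : Subgroup GQ)

/-- `X0K = Δ(t)/Δ(t^q)` in the fixed field of level `M q` -/
def X0K : fixF (M * q) H := ⟨X0F (M * q) q (dvd_level M q), X0F_mem_fixF _ _ H _⟩

/-- `Y0K = q¹² Δ(t^q)/Δ(t)` in the fixed field of level `M q` -/
def Y0K : fixF (M * q) H := ⟨Y0F (M * q) q (dvd_level M q), Y0F_mem_fixF _ _ H _⟩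

@[simp] theorem coe_X0K : ((X0K M q H : fixF (M * q) H) : FB (M * q)) =
    X0F (M * q) q (dvd_level M q) := rfl

@[simp] theorem coe_Y0K : ((Y0K M q H : fixF (M * q) H) : FB (M * q)) =
    Y0F (M * q) q (dvd_level M q) := rfl

theorem algebraMap_pow_eq : algebraMap Qb (FBar (M * q)) ((q : Qb) ^ 12) =
    ((q : ℕ) : FBar (M * q)) ^ 12 := by
  rw [map_pow, map_natCast]

/-- **`X0K * Y0K = q¹²`** -/
theorem X0K_mul_Y0K : X0K M q H * Y0K M q H = ((q : ℕ) : fixF (M * q) H) ^ 12 := by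
  apply Subtype.ext
  show X0F (M * q) q (dvd_level M q) * Y0F (M * q) q (dvd_level M q) = _
  rw [X0F_mul_Y0F, algebraMap_pow_eq]
  rfl

theorem natCast_ne_zero_fixF : ((q : ℕ) : fixF (M * q) H) ≠ 0 :=
  Nat.cast_ne_zero.mpr (NeZero.ne q)

theorem X0K_ne_zero : X0K M q H ≠ 0 := fun h =>
  X0F_ne_zero (M * q) q (dvd_level M q) (congrArg Subtype.val h)

theorem Y0K_ne_zero : Y0K M q H ≠ 0 := fun h =>
  Y0F_ne_zero (M * q) q (dvd_level M q) (congrArg Subtype.val h)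

/-! ### regularity off the cusps -/

theorem coe_X0K_mem_regAway :
    ((X0K M q H : fixF (M * q) H) : FB (M * q)) ∈ regAway Qb (Gin0.jF (M * q)) :=
  X0F_mem_regAway (M * q) q (dvd_level M q)

theorem coe_Y0K_mem_regAway :
    ((Y0K M q H : fixF (M * q) H) : FB (M * q)) ∈ regAway Qb (Gin0.jF (M * q)) :=
  Y0F_mem_regAway (M * q) q (dvd_level M q)

theorem coe_X0K_inv_mem_regAway :
    (((X0K M q H)⁻¹ : fixF (M * q) H) : FB (M * q)) ∈ regAway Qb (Gin0.jF (M * q)) :=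
  X0F_inv_mem_regAway (M * q) q (dvd_level M q)

theorem coe_Y0K_inv_mem_regAway :
    (((Y0K M q H)⁻¹ : fixF (M * q) H) : FB (M * q)) ∈ regAway Qb (Gin0.jF (M * q)) := by
  show (Y0F (M * q) q (dvd_level M q))⁻¹ ∈ regAway Qb (Gin0.jF (M * q))
  have hX0 := X0F_ne_zero (M * q) q (dvd_level M q)
  have hY0 := Y0F_ne_zero (M * q) q (dvd_level M q)
  have hc : algebraMap Qb (FBar (M * q)) ((q : Qb) ^ 12) ≠ 0 :=
    (map_ne_zero _).2 (pow_ne_zero 12 (natCast_ne_zero_Qb q))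
  have e : (Y0F (M * q) q (dvd_level M q))⁻¹ =
      algebraMap Qb (FBar (M * q)) (((q : Qb) ^ 12)⁻¹) * X0F (M * q) q (dvd_level M q) := by
    rw [map_inv₀, ← X0F_mul_Y0F (M * q) q (dvd_level M q)]
    field_simp
  rw [e]
  exact (regAway Qb (Gin0.jF (M * q))).mul_mem (algebraMap_mem_regAway _ _)
    (X0F_mem_regAway (M * q) q (dvd_level M q))

end Units

/-! ### the reductions at level `M q` over the inertia field -/

section Red

variable (M q : ℕ) [NeZero M] [NeZero q] [hq : Fact q.Prime] (A : ValuationSubring Qb)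
  (hqM : ¬ q ∣ M) (hA : A.LiesOverPrime q)

/-- **`red₀₁ Y0K = H₂`** -/
theorem gaussTwoK_redF_Y0K :
    (gaussTwoK M q A hqM hA).redF (Y0K M q (A.inertiaSubgroupIn ℚ)) =
      H₂ (gaussOne M q A hqM hA) := by
  rw [gaussTwoK_redF, coe_Y0K]
  exact Reg.redF₂_Y0F hqM (isGaussTwo_gaussTwo M q A hqM hA)

/-- **`red₁₀ (Y0K / q¹²) = H₂⁻¹`** -/
theorem gaussOneK_redF_Y0K_div :
    (gaussOneK M q A hqM hA).redF (Y0K M q (A.inertiaSubgroupIn ℚ) *
      (((q : ℕ) : fixF (M * q) (A.inertiaSubgroupIn ℚ)) ^ 12)⁻¹) =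
      (H₂ (gaussOne M q A hqM hA))⁻¹ := by
  rw [gaussOneK_redF]
  have e : (((Y0K M q (A.inertiaSubgroupIn ℚ) *
      (((q : ℕ) : fixF (M * q) (A.inertiaSubgroupIn ℚ)) ^ 12)⁻¹ :
        fixF (M * q) (A.inertiaSubgroupIn ℚ)) : FB (M * q))) =
      Y0F (M * q) q (dvd_level M q) * (algebraMap Qb (FBar (M * q)) ((q : Qb) ^ 12))⁻¹ := by
    rw [algebraMap_pow_eq]
    rfl
  rw [e]
  exact (Reg.Y0F_div_mem₁ (isGaussOne_gaussOne M q A hqM hA)).2

theorem H₂_gaussOne_ne_zero : H₂ (gaussOne M q A hqM hA) ≠ 0 :=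
  H₂_ne_zero (isGaussOne_gaussOne M q A hqM hA)

end Red

end Fermat.Agent.S36lib.Fin
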