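/-
S36lib / Fin / AuxLevel  (helper3)

**Final assembly of S36, part (F-a): the auxiliary levels.**

The only arithmetic input of S36 is helper1's `(C36) = Xfer.InertiaNewTors N₁ q p` at all pairs
`(N₁, q)` with `q ∥ N₁` (level `N₁ q = M q²`, `q ∤ M`).  By helper1's transfer
`Xfer.inertiaNewTors_of_mul` it may be proved at the level `N₁ r` for any `r` prime to `q`.  We choose

* `r = 36` for `q ≥ 5`   (then `M″ = 36 M` has no elliptic points: `ν₂ = ν₃ = 0`),
* `r = 9`  for `q = 2`   (`9 ∣ M″`, the level of `LSb/Count23/Two`),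
* `r = 4`  for `q = 3`   (`4 ∣ M″`, the level of `LSb/Count23/Three`),

so that helper5's counts `Count.count_sq_mod_five_le/_two/_three` apply at the level `M″ q²`.

* `IsAuxLevel M q`   : the three kinds of auxiliary levels `M` (`q ∤ M` is a separate hypothesis);
* `AuxInertiaNewTors p` : (C36) at all the auxiliary levels;
* `inertiaNewTors_of_aux` : `AuxInertiaNewTors p ⟹ (C36)` at all `(N₁, q)`, `q ∥ N₁`, `q ≠ p`;
* `inertiaKillTors_of_aux` : `AuxInertiaNewTors p ⟹ InertiaKillTors M p g` (the hypothesis of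
  `S36lib/S36Cond.s36_statement_of_inertiaKill`).
-/
import Mathlib
import Fermat.Agent.S36lib.R2.KillerDvd
import Fermat.Agent.S36lib.Count.ModSq

set_option autoImplicit false
set_option linter.style.haveILetI false
set_option linter.unusedSectionVars false

noncomputable section

namespace Fermat.Agent.S36lib.Fin

open CuspForm CongruenceSubgroup ModularCurve
open Fermat.Agent.S18lib Fermat.Agent.S28lib

/-- the multiplier `r` of the auxiliary level: `36` (`q ≥ 5`), `9` (`q = 2`), `4` (`q = 3`) -/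
def auxMul (q : ℕ) : ℕ := if q = 2 then 9 else if q = 3 then 4 else 36

theorem auxMul_two : auxMul 2 = 9 := rfl

theorem auxMul_three : auxMul 3 = 4 := rfl

theorem auxMul_of_five_le {q : ℕ} (h5 : 5 ≤ q) : auxMul q = 36 := by
  unfold auxMul
  rw [if_neg (by omega), if_neg (by omega)]

theorem auxMul_ne_zero (q : ℕ) : auxMul q ≠ 0 := by
  unfold auxMul
  split_ifs <;> norm_num

/-- a prime is `2`, `3` or `≥ 5` -/
theorem prime_cases {q : ℕ} (hq : q.Prime) : q = 2 ∨ q = 3 ∨ 5 ≤ q := by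
  by_contra h
  push Not at h
  obtain ⟨h2, h3, h5⟩ := h
  have h2' := hq.two_le
  have : q = 4 := by omega
  subst this
  exact absurd hq (by norm_num)

/-- the multiplier is prime to `q` -/
theorem coprime_auxMul {q : ℕ} (hq : q.Prime) : Nat.Coprime (auxMul q) q := by
  rcases prime_cases hq with rfl | rfl | h5
  · rw [auxMul_two]; norm_num
  · rw [auxMul_three]; norm_num
  · rw [auxMul_of_five_le h5, Nat.coprime_comm, Nat.Prime.coprime_iff_not_dvd hq]
    intro hd
    have h36 : (36 : ℕ) = 2 ^ 2 * 3 ^ 2 := by norm_num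
    rw [h36] at hd
    rcases (Nat.Prime.dvd_mul hq).1 hd with h | h
    · have := (Nat.prime_dvd_prime_iff_eq hq Nat.prime_two).1 (hq.dvd_of_dvd_pow h)
      omega
    · have := (Nat.prime_dvd_prime_iff_eq hq Nat.prime_three).1 (hq.dvd_of_dvd_pow h)
      omega

/-- **the auxiliary levels**: `36 ∣ M` for `q ≥ 5`, `9 ∣ M` for `q = 2`, `4 ∣ M` for `q = 3` -/
def IsAuxLevel (M q : ℕ) : Prop :=
  (5 ≤ q ∧ 36 ∣ M) ∨ (q = 2 ∧ 9 ∣ M) ∨ (q = 3 ∧ 4 ∣ M)

theorem isAuxLevel_mul_auxMul (M : ℕ) {q : ℕ} (hq : q.Prime) : IsAuxLevel (M * auxMul q) q := by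
  rcases prime_cases hq with rfl | rfl | h5
  · exact Or.inr (Or.inl ⟨rfl, by rw [auxMul_two]; exact Dvd.intro_left M rfl⟩)
  · exact Or.inr (Or.inr ⟨rfl, by rw [auxMul_three]; exact Dvd.intro_left M rfl⟩)
  · exact Or.inl ⟨h5, by rw [auxMul_of_five_le h5]; exact Dvd.intro_left M rfl⟩

/-- at an auxiliary level with `q ≥ 5` there are no elliptic points of order `2` -/
theorem nuTwo_eq_zero_of_isAuxLevel {M q : ℕ} (h5 : 5 ≤ q) (h : IsAuxLevel M q) :
    nuTwo M = 0 := by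
  rcases h with ⟨-, h36⟩ | ⟨rfl, -⟩ | ⟨rfl, -⟩
  · exact Count.nuTwo_eq_zero_of_four_dvd (Dvd.dvd.trans (by norm_num) h36)
  · omega
  · omega

/-- at an auxiliary level with `q ≥ 5` there are no elliptic points of order `3` -/
theorem nuThree_eq_zero_of_isAuxLevel {M q : ℕ} (h5 : 5 ≤ q) (h : IsAuxLevel M q) :
    nuThree M = 0 := by
  rcases h with ⟨-, h36⟩ | ⟨rfl, -⟩ | ⟨rfl, -⟩
  · exact Count.nuThree_eq_zero_of_nine_dvd (Dvd.dvd.trans (by norm_num) h36)
  · omega
  · omega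

theorem nine_dvd_of_isAuxLevel_two {M : ℕ} (h : IsAuxLevel M 2) : 9 ∣ M := by
  rcases h with ⟨h5, -⟩ | ⟨-, h9⟩ | ⟨h3, -⟩
  · omega
  · exact h9
  · omega

theorem four_dvd_of_isAuxLevel_three {M : ℕ} (h : IsAuxLevel M 3) : 4 ∣ M := by
  rcases h with ⟨h5, -⟩ | ⟨h2, -⟩ | ⟨-, h4⟩
  · omega
  · omega
  · exact h4

/-- **(C36) at the auxiliary levels**: the only open input of S36. -/
def AuxInertiaNewTors (p : ℕ) : Prop :=
  ∀ (M q : ℕ) [NeZero M] [NeZero q] [NeZero (M * q)], q.Prime → ¬ q ∣ M → q ≠ p →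
    IsAuxLevel M q → Xfer.InertiaNewTors (M * q) q p

/-- **(C36) at all levels from (C36) at the auxiliary levels** (helper1's transfer). -/
theorem inertiaNewTors_of_aux {p : ℕ} (hp : p.Prime) (H : AuxInertiaNewTors p)
    (N₁ q : ℕ) [NeZero N₁] [NeZero q] (hq : q.Prime) (hqN : q ∣ N₁) (hq2 : ¬ q ^ 2 ∣ N₁)
    (hqp : q ≠ p) : Xfer.InertiaNewTors N₁ q p := by
  obtain ⟨M, hM⟩ := hqN
  have hM' : N₁ = M * q := by rw [hM, mul_comm]
  subst hM'
  have hqM : ¬ q ∣ M := by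
    rintro ⟨c, rfl⟩
    exact hq2 ⟨c, by ring⟩
  have hM0 : M ≠ 0 := by
    rintro rfl
    exact hqM (dvd_zero q)
  haveI : Fact q.Prime := ⟨hq⟩
  haveI : NeZero M := ⟨hM0⟩
  haveI : NeZero (M * auxMul q) := ⟨Nat.mul_ne_zero hM0 (auxMul_ne_zero q)⟩
  haveI : NeZero (M * auxMul q * q) := ⟨Nat.mul_ne_zero (NeZero.ne _) hq.ne_zero⟩
  have hr := coprime_auxMul hq
  have hqM' : ¬ q ∣ M * auxMul q := by
    intro hd
    rcases (Nat.Prime.dvd_mul hq).1 hd with h | h
    · exact hqM h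
    · exact (Nat.Prime.coprime_iff_not_dvd hq).1 hr.symm h
  have H' := H (M * auxMul q) q hq hqM' hqp (isAuxLevel_mul_auxMul M hq)
  exact Xfer.inertiaNewTors_of_mul (N := M * q) (N' := M * auxMul q * q) hp
    ⟨auxMul q, by ring⟩ (Dvd.intro_left M rfl) (auxMul q) (by ring) hr H'

/-- **`InertiaKillTors` from (C36) at the auxiliary levels.** -/
theorem inertiaKillTors_of_aux {M p : ℕ} [NeZero M] (hp : p.Prime)
    {g : CuspForm (Gamma0 M) 2} (hg : g.IsNewform) (H : AuxInertiaNewTors p) :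
    InertiaKillTors M p g :=
  R2.inertiaKillTors_of_inertiaNewTors hp hg
    (fun N₁ q _ _ hq hqN hq2 hqp => inertiaNewTors_of_aux hp H N₁ q hq hqN hq2 hqp)

end Fermat.Agent.S36lib.Fin
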