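/-
S36lib / Fin / ClassLevel  (helper3)

**Final assembly of S36, part (F-b): brick B8b, the class level.**

`H ≤ G_ℚ` a subgroup (for S36: the inertia group of a valuation ring over `q`), `K = fixK H` its
fixed field, `F = fixF (N q) H`, `G = fixF N H` the `H`-fixed subfields of the modular function
fields of levels `N q` and `N` (helper1's `Desc2/SpeiserBar`).  Given

* helper4's chain context `X : J.ChainCtx D L … n q KS ND` over `(K, R)` on `(F, G)` whose Kummer
  system contains the Kummer functions of `F` (`hKum`) and whose norm maps are the norms along the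
  two degeneracy maps (`hNα`, `hNβ`),
* helper2's class descent (D3): `HasStableReps (N q) H` (an `H`-fixed class has an `H`-stable
  representative) and `HasFixedGenerators` at the levels `N q` and `N` (an `H`-stable principal
  divisor has a generator in the fixed field),

every `q`-new, `H`-fixed class `x ∈ J₀(N q)[n]` satisfies `(q² - 1)² • x = 0`.
-/
import Mathlib
import Fermat.Agent.S36lib.J.Chain
import Fermat.Agent.S36lib.Desc2.SpeiserBar
import Fermat.Agent.S36lib.Xfer.QNewDvd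
import Fermat.Agent.LSc.Core.NormPush

set_option autoImplicit false
set_option linter.unusedSectionVars false
set_option linter.unusedVariables false

noncomputable section

namespace Fermat.Agent.S36lib.Fin

open AlgebraicCurve ModularCurve AlgebraicCurve.SemilinearAut
open Fermat.Agent.S29lib Fermat.Agent.S29lib.GH Fermat.Agent.S29lib.D Fermat.Agent.S35lib
open Fermat.Agent.S37lib.HeckeInst
open Fermat.Agent.S36lib.Desc2 Fermat.Agent.S36lib.J Fermat.Agent.S36lib.Thick

local notation "Qb" => AlgebraicClosure ℚ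
local notation "GQ" => (AlgebraicClosure ℚ ≃ₐ[ℚ] AlgebraicClosure ℚ)

/-- a divisor of `FB N` is `H`-stable -/
def IsStableDiv (N : ℕ) (H : Subgroup GQ) (E : Divisor Qb (FB N)) : Prop :=
  ∀ σ ∈ H, galAutBar N σ • E = E

/-- **(D3-a)**: an `H`-fixed class of `J₀(N)` is the class of an `H`-stable divisor -/
def HasStableReps (N : ℕ) (H : Subgroup GQ) : Prop :=
  ∀ x : JZero N, (∀ σ ∈ H, σ • x = x) →
    ∃ E : Divisor.degZero (K := Qb) (F := FB N), Pic0.mk E = x ∧
      IsStableDiv N H (E : Divisor Qb (FB N))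

/-- **(D3-b)**: an `H`-stable principal divisor has a generator in the fixed field -/
def HasFixedGenerators (N : ℕ) (H : Subgroup GQ) : Prop :=
  ∀ E : Divisor Qb (FB N), IsStableDiv N H E → E.IsPrincipal →
    ∃ u : FB N, u ∈ fixF N H ∧ u ≠ 0 ∧ ∀ v : Place Qb (FB N), E v = v.ord u

theorem IsStableDiv.nsmul {N : ℕ} {H : Subgroup GQ} {E : Divisor Qb (FB N)}
    (hE : IsStableDiv N H E) (n : ℕ) : IsStableDiv N H (n • E) := by
  intro σ hσ
  have := (DistribSMul.toAddMonoidHom (Divisor Qb (FB N)) (galAutBar N σ)).map_nsmul n E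
  rw [DistribSMul.toAddMonoidHom_apply, DistribSMul.toAddMonoidHom_apply] at this
  rw [this, hE σ hσ]

/-- a constant of `FB N` lying in the fixed field comes from the fixed field of constants -/
theorem exists_fixK_of_mem_fixF {N : ℕ} {H : Subgroup GQ} {c : Qb}
    (hc : algebraMap Qb (FB N) c ∈ fixF N H) : ∃ c' : fixK H, algebraMap (fixK H) Qb c' = c := by
  refine ⟨⟨c, (IntermediateField.mem_fixedField_iff H c).mpr fun σ hσ => ?_⟩, rfl⟩
  have h1 := (mem_fixF_iff_isFixed.1 hc) ⟨σ, hσ⟩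
  rw [galPsi_algebraMap] at h1
  exact (algebraMap Qb (FB N)).injective h1

/-- functions of `FB N` without zeros and poles are constant -/
theorem exists_const_FB (N : ℕ) [NeZero N] {y : FB N} (hy : y ≠ 0)
    (h : ∀ v : Place Qb (FB N), v.ord y = 0) : ∃ c : Qb, c ≠ 0 ∧ y = algebraMap Qb (FB N) c := by
  obtain ⟨g, hF, -⟩ := S18lib.Gin0.exists_isCurveOfGenus_FBar N
  exact LSc.exists_const_of_ord_eq_zero hF hy h

/-- **the norm step of B8b.**  `ψ : FB N → FB N'` an integral embedding with the norm formula,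
commuting with `H`; `E` an `H`-stable divisor of `FB N'` with `ψ_* E` principal and `n E = div u`.
Then the norm of `u`, if it lies in the fixed field, is a constant of `K` times an `n`-th power of the
fixed field. -/
theorem isConstPow_of_pushforward {N N' : ℕ} [NeZero N] {H : Subgroup GQ}
    (ψ : FB N →ₐ[Qb] FB N') (hψ : ψ.toRingHom.IsIntegral) (hfin : FiniteAlong Qb ψ)
    (hN : NormFormulaAlong Qb ψ hfin)
    (hint : ∀ σ ∈ H, IntertwinesAlong ψ.toRingHom (galAutBar N σ) (galAutBar N' σ))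
    (hGen : HasFixedGenerators N H) {n : ℕ}
    {E : Divisor Qb (FB N')} (hE : IsStableDiv N' H E)
    (hpush : (Divisor.pushforwardAlong ψ hψ E).IsPrincipal)
    {u : FB N'} (hu0 : u ≠ 0) (hdiv : ∀ v : Place Qb (FB N'), (n : ℤ) * E v = v.ord u)
    (w : fixF N H) (hw : (w : FB N) = normAlong ψ u) : IsConstPow (fixK H) n w := by
  -- stability of the push-forward
  have hst : IsStableDiv N H (Divisor.pushforwardAlong ψ hψ E) := by
    intro σ hσ
    rw [← pushforwardAlong_smul ψ hψ (hint σ hσ) (deg_ne_zero_FB N) E, hE σ hσ]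
  obtain ⟨h, hhfix, hh0, hhdiv⟩ := hGen _ hst hpush
  have hord : ∀ v : Place Qb (FB N), v.ord (normAlong ψ u) = (n : ℤ) * v.ord h := by
    intro v
    rw [LSc.ord_normAlong_eq ψ hψ hfin hN hu0 hdiv v, hhdiv v]
  -- the quotient is a constant
  have hN0 : normAlong ψ u ≠ 0 := normAlong_ne_zero ψ hu0 hfin
  have hhn0 : (h ^ n)⁻¹ ≠ 0 := inv_ne_zero (pow_ne_zero n hh0)
  have hyord : ∀ v : Place Qb (FB N), v.ord (normAlong ψ u * (h ^ n)⁻¹) = 0 := by
    intro v
    rw [v.ord_mul hN0 hhn0, v.ord_inv, S18lib.Cech.ord_pow, hord v]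
    ring
  obtain ⟨c, hc0, hc⟩ := exists_const_FB N (mul_ne_zero hN0 hhn0) hyord
  have hyfix : normAlong ψ u * (h ^ n)⁻¹ ∈ fixF N H :=
    (fixF N H).mul_mem (hw ▸ w.2) ((fixF N H).inv_mem ((fixF N H).pow_mem hhfix n))
  rw [hc] at hyfix
  obtain ⟨c', hc'⟩ := exists_fixK_of_mem_fixF hyfix
  refine ⟨c', ⟨h, hhfix⟩, ?_, ?_, ?_⟩
  · rintro rfl
    rw [map_zero] at hc'
    exact hc0 hc'.symm
  · intro h0
    exact hh0 (congrArg Subtype.val h0)
  · apply Subtype.ext
    rw [hw]
    show normAlong ψ u = algebraMap Qb (FB N) (algebraMap (fixK H) Qb c') * h ^ n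
    rw [hc', ← hc, mul_assoc, inv_mul_cancel₀ (pow_ne_zero n hh0), mul_one]

section Main

variable {N q : ℕ} [NeZero N] [NeZero q] {H : Subgroup GQ} {R : ValuationSubring (fixK H)}
variable {F₁ F₂ F₃ G₁ G₂ : Type*} [Field F₁] [Field F₂] [Field F₃] [Field G₁] [Field G₂]
variable [Algebra (IsLocalRing.ResidueField R) F₁] [Algebra (IsLocalRing.ResidueField R) F₂]
variable [Algebra (IsLocalRing.ResidueField R) F₃]
variable [Algebra (IsLocalRing.ResidueField R) G₁] [Algebra (IsLocalRing.ResidueField R) G₂]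
variable {D : ThickDatum R (fixF (N * q) H) F₁ F₂ F₃} {L : LowDatum R (fixF N H) G₁ G₂}
variable {g g₁ g₂ g₃ g₁' g₂' n : ℕ} {KS : KummerSystem D g n} {ND : NormData D L}

/-- **B8b, the class level.** -/
theorem smul_eq_zero_of_chainCtx (X : ChainCtx D L g g₁ g₂ g₃ g₁' g₂' n q KS ND)
    (hKum : ∀ u : fixF (N * q) H, u ≠ 0 →
      (∃ E : Divisor Qb (FB (N * q)), ∀ v : Place Qb (FB (N * q)),
        (n : ℤ) * E v = v.ord (u : FB (N * q))) → KS.IsKum u)
    (hNα : ∀ u : fixF (N * q) H,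
      ((ND.Nα u : fixF N H) : FB N) = normAlong (heckeAlphaBar Qb N q) (u : FB (N * q)))
    (hNβ : ∀ u : fixF (N * q) H,
      ((ND.Nβ u : fixF N H) : FB N) = normAlong (heckeBetaBar Qb N q) (u : FB (N * q)))
    (hRep : HasStableReps (N * q) H) (hGen₂ : HasFixedGenerators (N * q) H)
    (hGen₁ : HasFixedGenerators N H)
    {x : JZero (N * q)} (hx : x ∈ Tors (N * q) n) (hnew : IsQNew N q x)
    (hfix : ∀ σ ∈ H, σ • x = x) : (((q ^ 2 - 1) ^ 2 : ℕ) : ℤ) • x = 0 := by
  have hn0 : n ≠ 0 := X.n_ne_zero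
  have hnZ : (n : ℤ) ≠ 0 := by exact_mod_cast hn0
  obtain ⟨E, rfl, hE⟩ := hRep x hfix
  -- `n E` is principal
  have hprinc : (n • (E : Divisor Qb (FB (N * q)))).IsPrincipal := by
    have h0 : (n : ℤ) • Pic0.mk E = 0 := (Submodule.mem_torsionBy_iff _ _).1 hx
    have h1 : Pic0.mk (n • E) = 0 := by
      rw [← h0, natCast_zsmul]
      rfl
    have h2 := (QuotientAddGroup.eq_zero_iff _).1 h1
    rw [AddSubgroup.mem_addSubgroupOf] at h2
    exact Divisor.mem_principal.1 (by simpa using h2)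
  obtain ⟨u, hufix, hu0, hudiv⟩ := hGen₂ _ (hE.nsmul n) hprinc
  have hudiv' : ∀ v : Place Qb (FB (N * q)),
      (n : ℤ) * (E : Divisor Qb (FB (N * q))) v = v.ord u := by
    intro v
    rw [← hudiv v, Finsupp.smul_apply, nsmul_eq_mul]
  set uF : fixF (N * q) H := ⟨u, hufix⟩ with huF
  have huF0 : uF ≠ 0 := fun h0 => hu0 (congrArg Subtype.val h0)
  have huK : KS.IsKum uF := hKum uF huF0 ⟨E, hudiv'⟩
  -- the two norms
  have hα : IsConstPow (fixK H) n (ND.Nα uF) := by
    refine isConstPow_of_pushforward (heckeAlphaBar Qb N q) (heckeAlphaBarIntegral N q)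
      (finiteAlong_alpha N q) (normFormulaAlong_alpha N q)
      (fun σ _ => intertwines_alpha N q σ) hGen₁ hE ?_ hu0 hudiv' _ (hNα uF)
    have := hasPrincipalDivisors_FB (N * q)
    exact LSc.isPrincipal_pushforwardAlong_of_eq_zero _ _ _ _ E hnew.1
  have hβ : IsConstPow (fixK H) n (ND.Nβ uF) := by
    refine isConstPow_of_pushforward (heckeBetaBar Qb N q) (heckeBetaBarIntegral N q)
      (finiteAlong_beta N q) (normFormulaAlong_beta N q)
      (fun σ _ => intertwines_beta N q σ) hGen₁ hE ?_ hu0 hudiv' _ (hNβ uF)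
    have := hasPrincipalDivisors_FB (N * q)
    exact LSc.isPrincipal_pushforwardAlong_of_eq_zero _ _ _ _ E hnew.2
  -- the chain
  obtain ⟨c, t, hc0, ht0, hct⟩ := X.chain huK hα hβ
  set Dq : ℕ := (q ^ 2 - 1) ^ 2 with hDq
  have htF0 : (t : FB (N * q)) ≠ 0 := fun h0 => ht0 (Subtype.ext h0)
  have hct' : u ^ Dq = algebraMap Qb (FB (N * q)) (algebraMap (fixK H) Qb c) *
      (t : FB (N * q)) ^ n := congrArg Subtype.val hct
  -- `Dq E = div t`
  have hdiv : ∀ v : Place Qb (FB (N * q)),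
      (Dq : ℤ) * (E : Divisor Qb (FB (N * q))) v = v.ord (t : FB (N * q)) := by
    intro v
    have h1 := congrArg v.ord hct'
    have hcF : algebraMap Qb (FB (N * q)) (algebraMap (fixK H) Qb c) ≠ 0 :=
      (map_ne_zero _).2 ((map_ne_zero _).2 hc0)
    rw [S18lib.Cech.ord_pow, v.ord_mul hcF (pow_ne_zero n htF0), S18lib.Cech.ord_const,
      S18lib.Cech.ord_pow, zero_add, ← hudiv' v] at h1
    have h2 : (n : ℤ) * ((Dq : ℤ) * (E : Divisor Qb (FB (N * q))) v) =
        (n : ℤ) * v.ord (t : FB (N * q)) := by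
      rw [← h1]; ring
    exact mul_left_cancel₀ hnZ h2
  -- conclusion in `Pic⁰`
  have h3 : Pic0.mk ((Dq : ℤ) • E) = 0 := by
    apply (QuotientAddGroup.eq_zero_iff _).2
    rw [AddSubgroup.mem_addSubgroupOf]
    refine ⟨(t : FB (N * q)), htF0, fun v => ?_⟩
    rw [← hdiv v]
    simp
  exact h3

end Main

/-- **(C36) from the class level statement** at every valuation ring over `q`, with
`d = (q² - 1)²`. -/
theorem inertiaNewTors_of_forall {N q p : ℕ} [NeZero N] [NeZero q] (hq : 2 ≤ q)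
    (h : ∀ A : ValuationSubring Qb, A.LiesOverPrime q → ∀ (k : ℕ) (x : JZero (N * q)),
      x ∈ Tors (N * q) (p ^ k) → IsQNew N q x → (∀ σ ∈ A.inertiaSubgroupIn ℚ, σ • x = x) →
        (((q ^ 2 - 1) ^ 2 : ℕ) : ℤ) • x = 0) : Xfer.InertiaNewTors N q p := by
  refine ⟨(q ^ 2 - 1) ^ 2, pow_ne_zero 2 ?_, h⟩
  have := one_le_sq_sub_one hq
  omega

end Fermat.Agent.S36lib.Fin
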