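/-
S36lib / Fin / GlueField  (helper3)

**The (GLUE) field of `Thick.ThickCtx` from the abstract three-place glue** (`Reg/Glue3`), service
(s1) for the modular instance.

`D : ThickDatum R F κ κ κ` (the three residue fields are the same field `κ`, in the application
`FRes A M`, and the three places `x₁ c = x₂ c = x₃ c` the supersingular place `P_c`).  The test ring
is `cuspRing D = ⋃_a 𝓛 a 0` (functions with poles on the first chart = the cusps).  Inputs: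

* `CuspRingHyp D`  : `𝓛 a 0` increasing, multiplicative, `1 ∈ 𝓛 0 0`;
* `hreg_i`          : reductions of `𝓛 a 0 ∩ O` are regular at the triple point (from (CHART));
* `hlift₁₂/hlift₃₂` : every `h ∈ 𝓛 a 0 ∩ O` has a lift `f ∈ 𝓛 a' 0 ∩ O` with `red₁ f = red₁ h = red₂ f`
                      (resp. `red₃ f = red₃ h = red₂ f`): `(αα)^* g₀`, `(ββ)^* g₀`, `g₀` of level `M`;
* the units `Y₁` (`= β^* Yw`), `Y₃` (`= α^* X0F`);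
* the second chart function `w` (`= j - c₀`) with `f w^b ∈ 𝓛 (a+b) 0` for `f ∈ 𝓛 a b`.

Output: `glue_field`, literally the field `glue` of `ThickCtx`.
-/
import Mathlib
import Fermat.Agent.S36lib.Reg.Glue3
import Fermat.Agent.S36lib.Norm.ThickBridge
import Fermat.Agent.ProgramR.FunctionField.PlaceDedekind

set_option autoImplicit false
set_option linter.unusedSectionVars false
set_option linter.unusedVariables false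

noncomputable section

namespace Fermat.Agent.S36lib.Fin

open AlgebraicCurve
open Fermat.Agent.S18lib Fermat.Agent.S36lib.Thick
open Fermat.Agent.S36lib.Norm (ofGauss ofRamGauss IsArch)
open Fermat.Agent.S36lib.Reg
open Fermat.Agent.LSb (HasValueAt)
open Fermat.Agent.LSb.Core (lin2 lin2_apply)

/-! ### regularity from (CHART) -/

/-- an element of `L(a Q₁ + b Q₂)` is regular at a point off the supports of `Q₁`, `Q₂` -/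
theorem mem_valuationSubring_of_mem_rr_lin2 {k Fk : Type*} [Field k] [Field Fk] [Algebra k Fk]
    {Q₁ Q₂ : Divisor k Fk} {x : Place k Fk} (h₁ : x ∉ Q₁.support) (h₂ : x ∉ Q₂.support)
    {a b : ℤ} {z : Fk} (hz : z ∈ riemannRochSpace (lin2 Q₁ Q₂ a b)) :
    z ∈ x.toValuationSubring := by
  rw [Fermat.Agent.ProgramR.FF.mem_iff_ord_nonneg]
  rcases (mem_riemannRochSpace_iff.1 hz x) with rfl | h
  · rw [Place.ord_zero]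
  · rw [lin2_apply, Finsupp.notMem_support_iff.1 h₁, Finsupp.notMem_support_iff.1 h₂] at h
    simpa using h

variable {K : Type*} [Field K] {R : ValuationSubring K}
variable {F : Type*} [Field F] [Algebra K F]
variable {κ : Type*} [Field κ] [Algebra (IsLocalRing.ResidueField R) κ]

local notation "k" => IsLocalRing.ResidueField R

/-- the facts on the family `𝓛 a 0` making `⋃_a 𝓛 a 0` a ring -/
structure CuspRingHyp (D : ThickDatum R F κ κ κ) : Prop where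
  mono : ∀ {a a' : ℕ}, a ≤ a' → D.𝓛 a 0 ≤ D.𝓛 a' 0
  mul_mem : ∀ {a a' : ℕ} {f f' : F}, f ∈ D.𝓛 a 0 → f' ∈ D.𝓛 a' 0 → f * f' ∈ D.𝓛 (a + a') 0
  one_mem : (1 : F) ∈ D.𝓛 0 0

variable {D : ThickDatum R F κ κ κ}

/-- the ring of functions with poles on the first chart only: `⋃_a 𝓛 a 0` -/
def cuspRing (h : CuspRingHyp D) : Subring F where
  carrier := {f | ∃ a : ℕ, f ∈ D.𝓛 a 0}
  mul_mem' := by
    rintro f f' ⟨a, hf⟩ ⟨a', hf'⟩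
    exact ⟨a + a', h.mul_mem hf hf'⟩
  one_mem' := ⟨0, h.one_mem⟩
  add_mem' := by
    rintro f f' ⟨a, hf⟩ ⟨a', hf'⟩
    exact ⟨max a a', (D.𝓛 _ 0).add_mem (h.mono (le_max_left a a') hf)
      (h.mono (le_max_right a a') hf')⟩
  zero_mem' := ⟨0, (D.𝓛 0 0).zero_mem⟩
  neg_mem' := by
    rintro f ⟨a, hf⟩
    exact ⟨a, (D.𝓛 a 0).neg_mem hf⟩

theorem mem_cuspRing {h : CuspRingHyp D} {f : F} : f ∈ cuspRing h ↔ ∃ a : ℕ, f ∈ D.𝓛 a 0 :=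
  Iff.rfl

/-- the ball of `Reg/Glue3` for the cusp ring is `cuspRing ∩ D.O` -/
theorem mem_ball_cuspRing {h : CuspRingHyp D} {f : F} :
    f ∈ ball (cuspRing h) (ofGauss D.V₁) (ofRamGauss D.V₂) (ofGauss D.V₃) ↔
      (∃ a : ℕ, f ∈ D.𝓛 a 0) ∧ f ∈ D.O := by
  rw [mem_ball, ThickDatum.mem_O]
  rfl

/-- `hreg₁` from the field `chart₁` of `ThickCtx` -/
theorem hreg₁_of_chart
    (chart₁ : ∀ (a b : ℕ) (f : F), f ∈ D.𝓛 a b → f ∈ D.O →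
      D.V₁.redF f ∈ riemannRochSpace (D.chartDiv₁ a b))
    (c : Fin D.s) (hx : D.x₁ c ∉ D.Q₁₁.support ∧ D.x₁ c ∉ D.Q₂₁.support)
    (a : ℕ) (f : F) (hf : f ∈ D.𝓛 a 0) (hO : f ∈ D.O) :
    D.V₁.redF f ∈ (D.x₁ c).toValuationSubring :=
  mem_valuationSubring_of_mem_rr_lin2 hx.1 hx.2 (chart₁ a 0 f hf hO)

/-- `hreg₂` from the field `chart₂` of `ThickCtx` -/
theorem hreg₂_of_chart
    (chart₂ : ∀ (a b : ℕ) (f : F), f ∈ D.𝓛 a b → f ∈ D.O →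
      D.red₂ f ∈ riemannRochSpace (D.chartDiv₂ a b))
    (c : Fin D.s) (hx : D.x₂ c ∉ D.Q₁₂.support ∧ D.x₂ c ∉ D.Q₂₂.support)
    (a : ℕ) (f : F) (hf : f ∈ D.𝓛 a 0) (hO : f ∈ D.O) :
    D.red₂ f ∈ (D.x₂ c).toValuationSubring :=
  mem_valuationSubring_of_mem_rr_lin2 hx.1 hx.2 (chart₂ a 0 f hf hO)

/-- `hreg₃` from the field `chart₃` of `ThickCtx` -/
theorem hreg₃_of_chart
    (chart₃ : ∀ (a b : ℕ) (f : F), f ∈ D.𝓛 a b → f ∈ D.O →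
      D.V₃.redF f ∈ riemannRochSpace (D.chartDiv₃ a b))
    (c : Fin D.s) (hx : D.x₃ c ∉ D.Q₁₃.support ∧ D.x₃ c ∉ D.Q₂₃.support)
    (a : ℕ) (f : F) (hf : f ∈ D.𝓛 a 0) (hO : f ∈ D.O) :
    D.V₃.redF f ∈ (D.x₃ c).toValuationSubring :=
  mem_valuationSubring_of_mem_rr_lin2 hx.1 hx.2 (chart₃ a 0 f hf hO)

/-- **(GLUE) at the triple point `c` for the cusp ring.** -/
theorem glueAt_cuspRing (h : CuspRingHyp D) (c : Fin D.s)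
    (hx₁ : D.x₁ c = D.x₂ c) (hx₃ : D.x₃ c = D.x₂ c) (hdeg : (D.x₂ c).deg = 1)
    (hreg₁ : ∀ (a : ℕ) (f : F), f ∈ D.𝓛 a 0 → f ∈ D.O →
      D.V₁.redF f ∈ (D.x₁ c).toValuationSubring)
    (hreg₂ : ∀ (a : ℕ) (f : F), f ∈ D.𝓛 a 0 → f ∈ D.O →
      D.red₂ f ∈ (D.x₂ c).toValuationSubring)
    (hreg₃ : ∀ (a : ℕ) (f : F), f ∈ D.𝓛 a 0 → f ∈ D.O →
      D.V₃.redF f ∈ (D.x₃ c).toValuationSubring)
    (harch₁ : IsArch D.V₁.O) (harch₃ : IsArch D.V₃.O)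
    (hlift₁₂ : ∀ (a : ℕ) (f : F), f ∈ D.𝓛 a 0 → f ∈ D.O → ∃ (a' : ℕ) (f' : F),
      f' ∈ D.𝓛 a' 0 ∧ f' ∈ D.O ∧ D.V₁.redF f' = D.V₁.redF f ∧ D.red₂ f' = D.V₁.redF f)
    (hlift₃₂ : ∀ (a : ℕ) (f : F), f ∈ D.𝓛 a 0 → f ∈ D.O → ∃ (a' : ℕ) (f' : F),
      f' ∈ D.𝓛 a' 0 ∧ f' ∈ D.O ∧ D.V₃.redF f' = D.V₃.redF f ∧ D.red₂ f' = D.V₃.redF f)
    {Y₁ Y₃ : F} (hY₁0 : Y₁ ≠ 0) (hY₃0 : Y₃ ≠ 0)
    (hY₁S : ∃ a : ℕ, Y₁⁻¹ ∈ D.𝓛 a 0) (hY₃S : ∃ a : ℕ, Y₃⁻¹ ∈ D.𝓛 a 0)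
    (hY₁2 : Y₁ ∈ D.V₂.O) (hY₁2' : Y₁⁻¹ ∈ D.V₂.O) (hY₁3 : Y₁⁻¹ ∈ D.V₃.O)
    (hY₃2 : Y₃ ∈ D.V₂.O) (hY₃2' : Y₃⁻¹ ∈ D.V₂.O) (hY₃1 : Y₃⁻¹ ∈ D.V₁.O)
    (hH₁ : (D.x₂ c).adicValuation (D.red₂ Y₁) < 1)
    (hH₃ : (D.x₂ c).adicValuation (D.red₂ Y₃) < 1) :
    GlueAt (ofGauss D.V₁) (ofRamGauss D.V₂) (ofGauss D.V₃) (D.x₁ c) (D.x₂ c) (D.x₃ c)
      (cuspRing h : Set F) := by
  refine glue3 (cuspRing h) (ofGauss D.V₁) (ofRamGauss D.V₂) (ofGauss D.V₃) (D.x₁ c) (D.x₂ c)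
    (D.x₃ c) (hx₁ ▸ hdeg) (hx₃ ▸ hdeg) ?_ ?_ ?_ (RingHom.id κ) (RingHom.id κ) ?_ ?_ ?_ ?_
    hY₁0 hY₃0 hY₁2 hY₃2 ?_ ?_ hH₁ hH₃
  · intro f hf
    obtain ⟨⟨a, ha⟩, hO⟩ := mem_ball_cuspRing.1 hf
    exact hreg₁ a f ha hO
  · intro f hf
    obtain ⟨⟨a, ha⟩, hO⟩ := mem_ball_cuspRing.1 hf
    exact hreg₂ a f ha hO
  · intro f hf
    obtain ⟨⟨a, ha⟩, hO⟩ := mem_ball_cuspRing.1 hf
    exact hreg₃ a f ha hO
  · intro z α hα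
    rw [RingHom.id_apply, ← hx₁]
    exact hα
  · intro z α hα
    rw [RingHom.id_apply, ← hx₃]
    exact hα
  · intro f hf
    obtain ⟨⟨a, ha⟩, hO⟩ := mem_ball_cuspRing.1 hf
    obtain ⟨a', f', hf', hO', h1, h2⟩ := hlift₁₂ a f ha hO
    exact ⟨f', mem_ball_cuspRing.2 ⟨⟨a', hf'⟩, hO'⟩, h1, h2⟩
  · intro f hf
    obtain ⟨⟨a, ha⟩, hO⟩ := mem_ball_cuspRing.1 hf
    obtain ⟨a', f', hf', hO', h1, h2⟩ := hlift₃₂ a f ha hO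
    exact ⟨f', mem_ball_cuspRing.2 ⟨⟨a', hf'⟩, hO'⟩, h1, h2⟩
  · exact pow_trick₁ (cuspRing h) _ _ _ harch₁ hY₁S hY₁2' hY₁3
  · exact pow_trick₃ (cuspRing h) _ _ _ harch₃ hY₃S hY₃1 hY₃2'

/-- **the field `glue` of `ThickCtx`** from (GLUE) for the cusp ring at every triple point and the
second chart function `w` (`= j - c₀`). -/
theorem glue_field (h : CuspRingHyp D)
    (hG : ∀ c, GlueAt (ofGauss D.V₁) (ofRamGauss D.V₂) (ofGauss D.V₃) (D.x₁ c) (D.x₂ c) (D.x₃ c)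
      (cuspRing h : Set F))
    {w : F} (hw : ∃ a : ℕ, w ∈ D.𝓛 a 0) (hwO : w ∈ D.O)
    (hwmul : ∀ (a b : ℕ) (f : F), f ∈ D.𝓛 a b → ∃ a' : ℕ, f * w ^ b ∈ D.𝓛 a' 0)
    (hwred : D.red₂ w ≠ 0) (hwx : ∀ c, (D.red₂ w)⁻¹ ∈ (D.x₂ c).toValuationSubring) :
    ∀ (a b : ℕ) (f : F), f ∈ D.𝓛 a b → f ∈ D.O → ∀ c, ∃ α : IsLocalRing.ResidueField R,
      HasValueAt (D.x₁ c) (D.V₁.redF f) α ∧ HasValueAt (D.x₂ c) (D.red₂ f) α ∧
        HasValueAt (D.x₃ c) (D.V₃.redF f) α := by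
  intro a b f hf hfO c
  obtain ⟨hw1, hw2, hw3⟩ := ThickDatum.mem_O.1 hwO
  obtain ⟨hf1, hf2, hf3⟩ := ThickDatum.mem_O.1 hfO
  exact GlueAt.of_mul_pow (hG c) (S := cuspRing h) hw hw1 hw2 hw3 hwred (hwx c) b
    (hwmul a b f hf) hf1 hf2 hf3

end Fermat.Agent.S36lib.Fin
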