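/-
S36lib / Fin / GlueRows  (helper3)

**(GLUE) at a triple point `(x, x, x)` from the ten restriction rows** of the tower
`F' → G ⇉ F` (levels `M`, `M q`, `M q²`; helper8's `Reg.Rows`), a lifting statement at level `M` and
the two modular units `X Y = π₀^m` of level `M q`.

* lifts for the pair `1 → 2`: `f = α₂ α₁ y`, `red₁ f = red_M y = red₂ f`;
* lifts for the pair `3 → 2`: `f = β₂ β₁ y`, `red₃ f = red_M y = red₂ f`;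
* units: `Y₁ = β₂ Y` (`red₂ Y₁ = H`, unit at `P₂`, `P₃`), `Y₃ = α₂ X` (`red₂ Y₃ = H`, unit at `P₁`, `P₂`).
-/
import Mathlib
import Fermat.Agent.S36lib.Reg.Glue3
import Fermat.Agent.S36lib.Reg.Rows

set_option autoImplicit false
set_option linter.unusedSectionVars false
set_option linter.unusedVariables false

noncomputable section

namespace Fermat.Agent.S36lib.Fin

open AlgebraicCurve
open Fermat.Agent.S36lib.Reg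
open Fermat.Agent.LSb (HasValueAt)

variable {F' G F κ : Type*} [Field F'] [Field G] [Field F] [Field κ]
variable {α₁ β₁ : F' →+* G} {α₂ β₂ : G →+* F} {V : κ →+* κ}
variable {WM : Norm.Place F' κ} {W₁ W₂ : Norm.Place G κ} {P₁ P₂ P₃ : Norm.Place F κ}

/-- **(GLUE) from the rows.**
`S` : test ring at level `M q²`, `S₀` : test ring at level `M` (pulled back into `S` by `α₂ α₁` and
`β₂ β₁`), `R₀ ⊆ κ` : the ring containing all reductions of the ball (CHART), regular at `x`, whose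
elements lift to `S₀ ∩ O_M`. -/
theorem glueAt_of_rows (T : Rows α₁ β₁ α₂ β₂ V WM W₁ W₂ P₁ P₂ P₃)
    {k : Type*} [Field k] [Algebra k κ] (x : Place k κ) (hdeg : x.deg = 1)
    (S : Subring F) (S₀ : Subring F') (R₀ : Subring κ)
    (hS₀α : ∀ y ∈ S₀, α₂ (α₁ y) ∈ S) (hS₀β : ∀ y ∈ S₀, β₂ (β₁ y) ∈ S)
    (hchart₁ : ∀ f ∈ ball S P₁ P₂ P₃, P₁.redF f ∈ R₀)
    (hchart₂ : ∀ f ∈ ball S P₁ P₂ P₃, P₂.redF f ∈ R₀)
    (hchart₃ : ∀ f ∈ ball S P₁ P₂ P₃, P₃.redF f ∈ R₀)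
    (hR₀x : ∀ z ∈ R₀, z ∈ x.toValuationSubring)
    (hlift₀ : ∀ z ∈ R₀, ∃ y ∈ S₀, y ∈ WM.O ∧ WM.redF y = z)
    (harch₁ : Norm.IsArch P₁.O) (harch₃ : Norm.IsArch P₃.O)
    {π₀ X Y : G} {H : κ} {m : ℕ} (hπ₀ : π₀ ≠ 0) (hXY : X * Y = π₀ ^ m)
    (hY₁ : W₁.redF (Y * (π₀ ^ m)⁻¹) = H⁻¹) (hY₂ : W₂.redF Y = H) (hH : H ≠ 0)
    (hE₁S' : (β₂ Y)⁻¹ ∈ S) (hE₃S' : (α₂ X)⁻¹ ∈ S)
    (hHx : x.adicValuation H < 1) :
    GlueAt P₁ P₂ P₃ x x x (S : Set F) := by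
  have hX₁ : W₁.redF X = H := Rows.redF_X_of_Y hπ₀ hXY hY₁ hH
  have hX₁ne : W₁.redF X ≠ 0 := by rw [hX₁]; exact hH
  have hY₂ne : W₂.redF Y ≠ 0 := by rw [hY₂]; exact hH
  have hXm : X ∈ W₁.O := W₁.mem_of_redF_ne_zero hX₁ne
  have hYm : Y ∈ W₂.O := W₂.mem_of_redF_ne_zero hY₂ne
  have hπm : π₀ ^ m ≠ 0 := pow_ne_zero m hπ₀
  have hX0 : X ≠ 0 := by
    rintro rfl
    rw [zero_mul] at hXY
    exact hπm hXY.symm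
  have hY0 : Y ≠ 0 := by
    rintro rfl
    rw [mul_zero] at hXY
    exact hπm hXY.symm
  -- the unit `Y₁ = β₂ Y`
  have hr₂Y : P₂.redF (β₂ Y) = H := by rw [T.p₂β.red Y hYm, hY₂]; rfl
  have hr₃Y : P₃.redF (β₂ Y) = H := by rw [T.p₃β.red Y hYm, hY₂]; rfl
  have hY₁2 : β₂ Y ∈ P₂.O := T.p₂β.mem Y hYm
  have hY₁2' : (β₂ Y)⁻¹ ∈ P₂.O := P₂.inv_mem_of_redF_ne_zero (by rw [hr₂Y]; exact hH)
  have hY₁3' : (β₂ Y)⁻¹ ∈ P₃.O := P₃.inv_mem_of_redF_ne_zero (by rw [hr₃Y]; exact hH)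
  -- the unit `Y₃ = α₂ X`
  have hr₁X : P₁.redF (α₂ X) = H := by rw [T.p₁α.red X hXm, hX₁]; rfl
  have hr₂X : P₂.redF (α₂ X) = H := by rw [T.p₂α.red X hXm, hX₁]; rfl
  have hY₃2 : α₂ X ∈ P₂.O := T.p₂α.mem X hXm
  have hY₃2' : (α₂ X)⁻¹ ∈ P₂.O := P₂.inv_mem_of_redF_ne_zero (by rw [hr₂X]; exact hH)
  have hY₃1' : (α₂ X)⁻¹ ∈ P₁.O := P₁.inv_mem_of_redF_ne_zero (by rw [hr₁X]; exact hH)
  refine glue3 S P₁ P₂ P₃ x x x hdeg hdeg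
    (fun f hf => hR₀x _ (hchart₁ f hf)) (fun f hf => hR₀x _ (hchart₂ f hf))
    (fun f hf => hR₀x _ (hchart₃ f hf)) (RingHom.id κ) (RingHom.id κ)
    (fun z α hα => hα) (fun z α hα => hα) ?_ ?_
    ((map_ne_zero β₂).2 hY0) ((map_ne_zero α₂).2 hX0) hY₁2 hY₃2
    (pow_trick₁ S P₁ P₂ P₃ harch₁ hE₁S' hY₁2' hY₁3')
    (pow_trick₃ S P₁ P₂ P₃ harch₃ hE₃S' hY₃1' hY₃2')
    (by rw [hr₂Y]; exact hHx) (by rw [hr₂X]; exact hHx)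
  · -- lifts `α₂ α₁ y`
    intro h hh
    obtain ⟨y, hyS, hyO, hyr⟩ := hlift₀ _ (hchart₁ h hh)
    have h1 := T.w₁α.mem y hyO
    have h2 := T.w₂α.mem y hyO
    refine ⟨α₂ (α₁ y), mem_ball.2 ⟨hS₀α y hyS, T.p₁α.mem _ h1, T.p₂α.mem _ h1, T.p₃α.mem _ h2⟩,
      ?_, ?_⟩
    · rw [T.p₁α.red _ h1, T.w₁α.red y hyO, hyr]; rfl
    · rw [T.p₂α.red _ h1, T.w₁α.red y hyO, hyr]; rfl
  · -- lifts `β₂ β₁ y`
    intro h hh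
    obtain ⟨y, hyS, hyO, hyr⟩ := hlift₀ _ (hchart₃ h hh)
    have h1 := T.w₁β.mem y hyO
    have h2 := T.w₂β.mem y hyO
    refine ⟨β₂ (β₁ y), mem_ball.2 ⟨hS₀β y hyS, T.p₁β.mem _ h1, T.p₂β.mem _ h2, T.p₃β.mem _ h2⟩,
      ?_, ?_⟩
    · rw [T.p₃β.red _ h2, T.w₂β.red y hyO, hyr]; rfl
    · rw [T.p₂β.red _ h2, T.w₂β.red y hyO, hyr]; rfl

end Fermat.Agent.S36lib.Fin
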