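/-
S36lib / Fin / LiftM  (helper3)

**`K`-rational lifting at level `M`** (`K = Kfix A`, the inertia field; `q ∤ M`, `A` over `q`):
every `z ∈ FRes A M` which is regular away from the poles of `j̄` is the reduction of an
INERTIA-FIXED function `f ∈ fixF M I` of level `M`, integral for the Gauss valuation `v_M`
(`gaussMK`), regular away from the poles of `j`.

Proof: LSb's `Old.exists_lift_level` gives a `ℚ̄`-lift `f₀ ∈ L(m (j)_∞)`; the divisor `m (j)_∞` is
Galois-stable, so by Speiser `dim_K (L ∩ fixF) = dim_ℚ̄ L` (`Fin.finrank_fixL`), and helper1's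
`Desc2.exists_fixed_lift` (orthonormal bases over `(K, R)` stay orthonormal over `(ℚ̄, A)`) produces
the fixed lift.

This is the hypothesis `hlift₀` of `Fin.glueAt_of_rows`.
-/
import Mathlib
import Fermat.Agent.S36lib.Desc2.Places
import Fermat.Agent.S36lib.Fin.ChartInst
import Fermat.Agent.LSb.Old.Lift

set_option autoImplicit false
set_option linter.unusedSectionVars false
set_option linter.unusedVariables false
set_option linter.style.haveILetI false

noncomputable section

namespace Fermat.Agent.S36lib.Fin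

open AlgebraicCurve ModularCurve Module
open Fermat.Agent.S29lib Fermat.Agent.S29lib.GH Fermat.Agent.S18lib Fermat.Agent.S18lib.V
open Fermat.Agent.S37lib.HeckeInst
open Fermat.Agent.S36lib.Desc Fermat.Agent.S36lib.Desc2
open Fermat.Agent.LSb.Frame

local notation "Qb" => AlgebraicClosure ℚ
local notation "GQ" => (AlgebraicClosure ℚ ≃ₐ[ℚ] AlgebraicClosure ℚ)

variable {M q : ℕ} [NeZero M] [NeZero q] [hq : Fact q.Prime]
variable {A : ValuationSubring (AlgebraicClosure ℚ)}

local notation "kA" => IsLocalRing.ResidueField A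

/-- `j` of level `M` is fixed by every subgroup of the Galois group -/
theorem jF_mem_fixF (H : Subgroup GQ) : Gin0.jF M ∈ fixF M H := by
  have h := jd_mem_fixF (N := M) H 1 (one_dvd M)
  have e : Gin0.jF M = LSb.Val.jd M 1 (one_dvd M) := by
    apply Subtype.ext
    rw [Gin0.coe_jF, LSb.Val.coe_jd_eq, qExpand_one_apply]
  rw [e]; exact h

/-- **`K`-rational lifting at level `M`.** -/
theorem exists_liftM_fix (hqM : ¬ q ∣ M) (hA : A.LiesOverPrime q) (z : FRes A M)
    (hz : ∀ Q : Place kA (FRes A M), 0 ≤ Q.ord (Gink.jK A M) → 0 ≤ Q.ord z) :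
    ∃ f : fixF M (A.inertiaSubgroupIn ℚ), f ∈ (gaussMK M A hqM hA).O ∧
      (∀ P : Place Qb (FBar M), 0 ≤ P.ord (Gin0.jF M) → 0 ≤ P.ord (f : FBar M)) ∧
      (gaussMK M A hqM hA).redF f = z := by
  classical
  obtain ⟨f₀, hf₀O, hf₀reg, hf₀red⟩ := LSb.Old.exists_lift_level hqM hA z hz
  obtain ⟨g, hF, -⟩ := Gin0.exists_isCurveOfGenus_FBar M
  have := hasPrincipalDivisors_FB M
  obtain ⟨m, hm⟩ := LSb.Old.exists_mem_rr_smul_polesOf (K := Qb) (Gin0.jF M) f₀ hf₀reg
  set E : Divisor Qb (FB M) := (m : ℤ) • polesOf (K := Qb) (Gin0.jF M) with hE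
  have hst : IsStableDiv M (A.inertiaSubgroupIn ℚ) E :=
    (isStableDiv_polesOf (jF_mem_fixF _)).zsmul _
  have hfd : FiniteDimensional Qb (riemannRochSpace E) := hF.finiteDimensional E
  have hfd' : FiniteDimensional (fixK (A.inertiaSubgroupIn ℚ))
      (fixL M (A.inertiaSubgroupIn ℚ) E) := finiteDimensional_fixL hF hst
  obtain ⟨f, hfW, hfO, hfred⟩ := exists_fixed_lift (descentBase_Wfix hq.out hA)
    (residueSurj_Wfix hq.out hA) (algCompat_of_resCompat (resCompat_resAlgebraOn A _))
    (compat_gaussMK M A hqM hA) (gaussMK_hasOrthonormalBases M A hqM hA)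
    (riemannRochSpace E) (fixL M (A.inertiaSubgroupIn ℚ) E) (fun x => Iff.rfl)
    (finrank_fixL hst) (hm m le_rfl) hf₀O
  refine ⟨f, hfO, fun P hP => ?_, by rw [hfred, hf₀red]⟩
  have hfW' : (f : FB M) ∈ riemannRochSpace E := hfW
  rcases eq_or_ne (f : FB M) 0 with h0 | h0
  · rw [h0, Place.ord_zero]
  have := (mem_riemannRochSpace_iff.1 hfW' P).resolve_left h0
  rw [hE, Finsupp.smul_apply, smul_eq_mul, polesOf_apply, max_eq_right (by linarith), mul_zero,
    neg_zero] at this
  exact this

end Fermat.Agent.S36lib.Fin
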