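/-
S36lib / Fin / GlueInst  (helper3)

**(GLUE) for the modular thick datum** `Inst.modThick M q A hqM hA V₁ V₂ V₃` (helper5's `Inst/Datum`):
at every triple point `triplePt c` the three reductions of a function regular off the cusps take the
same value.

Inputs: the ten restriction rows `Reg.Rows` of the tower `fixF M I → fixF (M q) I ⇉ fixF (M q²) I`
(helper8 / helper9 / helper2 / helper7), the three (CHART) fields, the reduction table `RedJ` of `j`,
and compatibility of the places of levels `M`, `M q` with the `ℚ̄`-Gauss data of LSb.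

Everything else is discharged here: the level `M` lifting (`Fin.exists_liftM_fix`), the modular
units (`Fin/UnitsK`), regularity off the cusps (`Fin/CuspInst`).
-/
import Mathlib
import Fermat.Agent.S36lib.Fin.GlueField
import Fermat.Agent.S36lib.Fin.GlueRows
import Fermat.Agent.S36lib.Fin.LiftM
import Fermat.Agent.S36lib.Fin.UnitsK
import Fermat.Agent.S36lib.Inst.Ctx
import Fermat.Agent.S36lib.Mid.FixDegree
import Fermat.Agent.S36lib.Norm.RestrictAlong

set_option autoImplicit false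
set_option linter.unusedSectionVars false
set_option linter.unusedVariables false
set_option linter.style.haveILetI false

noncomputable section

namespace Fermat.Agent.S36lib.Fin

open AlgebraicCurve ModularCurve IsLocalRing
open Fermat.Agent.S18lib Fermat.Agent.ProgramR
open Fermat.Agent.S36lib.Thick Fermat.Agent.S36lib.Desc Fermat.Agent.S36lib.Desc2
open Fermat.Agent.S36lib.Inst Fermat.Agent.S36lib.Reg Fermat.Agent.S36lib.Mid
open Fermat.Agent.S36lib.Norm (ofGauss ofRamGauss IsArch alphaFix betaFix coe_alphaFix coe_betaFix)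
open Fermat.Agent.S37lib.HeckeInst (FB hasPrincipalDivisors_FB)
open Fermat.Agent.LSb (HasValueAt)
open Fermat.Agent.LSb.Unit (regAway H₂ dvd_level)
open Fermat.Agent.LSb.Val (gaussOne gaussTwo)

local notation "Qb" => AlgebraicClosure ℚ
local notation "GQ" => (AlgebraicClosure ℚ ≃ₐ[ℚ] AlgebraicClosure ℚ)

variable {M q : ℕ} [NeZero M] [NeZero q] [hq : Fact q.Prime] {A : ValuationSubring Qb}
  {hqM : ¬ q ∣ M} {hA : A.LiesOverPrime q}

local notation "kA" => IsLocalRing.ResidueField A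
local notation "kW" => IsLocalRing.ResidueField (Wfix A)

variable [HasPrincipalDivisors (IsLocalRing.ResidueField A) (FRes A M)]
variable [HasPrincipalDivisors (IsLocalRing.ResidueField (Wfix A)) (FRes A M)]

variable {V₁ : GaussDatum (Wfix A) (FTop M q A) (FRes A M)}
  {V₂ : RamGaussDatum (Wfix A) (FTop M q A) (FRes A M)}
  {V₃ : GaussDatum (Wfix A) (FTop M q A) (FRes A M)}

/-! ### the cusp ring of the modular thick datum -/

/-- the chart hypotheses of the modular chart divisors -/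
theorem chartHyp_mod {g : ℕ} (hF : IsCurveOfGenus Qb (FB (M * q * q)) g) :
    ChartHyp (M * q * q) (HI A) (chartP₁ M q A) (chartP₂ M q A hqM hA) g := by
  have h := chartHyp_polesOf_zerosOf hF (jTop M q A) ((c0W M q A hqM hA : Wfix A) : Kfix A)
  unfold chartP₁ chartP₂
  exact h

theorem modThick_𝓛 : (modThick M q A hqM hA V₁ V₂ V₃).𝓛 =
    chartL (M * q * q) (HI A) (chartP₁ M q A) (chartP₂ M q A hqM hA) := rfl

/-- `𝓛 a 0` of the modular thick datum is a ring filtration -/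
theorem cuspRingHyp_modThick {g : ℕ} (hF : IsCurveOfGenus Qb (FB (M * q * q)) g) :
    CuspRingHyp (modThick M q A hqM hA V₁ V₂ V₃) := by
  have C := chartHyp_mod (hqM := hqM) (hA := hA) hF
  refine ⟨?_, ?_, ?_⟩
  · intro a a' ha
    rw [modThick_𝓛]
    have := C.chartL_mono (a := a) (a' := a') (b := 0) (b' := 0) ha le_rfl
    exact this
  · intro a a' f f' hf hf'
    rw [modThick_𝓛] at hf hf' ⊢
    have := C.chartL_mul_mem hf hf'
    exact this
  · rw [modThick_𝓛]
    have := C.chartL_one_mem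
    exact this

/-- membership in the cusp ring: regular off the cusps -/
theorem mem_cuspRing_modThick (h : CuspRingHyp (modThick M q A hqM hA V₁ V₂ V₃))
    (f : FTop M q A) (hf : (f : FB (M * q * q)) ∈ regAway Qb (Gin0.jF (M * q * q))) :
    f ∈ cuspRing h := by
  rw [← coe_jTop (M := M) (q := q) (A := A)] at hf
  exact exists_mem_chartL_of_regAway _ _ f hf

/-- the elements of the cusp ring are regular off the cusps -/
theorem regAway_of_mem_cuspRing_modThick (h : CuspRingHyp (modThick M q A hqM hA V₁ V₂ V₃))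
    (f : FTop M q A) (hf : f ∈ cuspRing h) :
    (f : FB (M * q * q)) ∈ regAway Qb (Gin0.jF (M * q * q)) := by
  obtain ⟨a, ha⟩ := hf
  rw [← coe_jTop (M := M) (q := q) (A := A)]
  exact mem_regAway_of_mem_chartL _ _ f a ha

/-! ### (CHART) in the `regAway` form -/

omit [HasPrincipalDivisors (IsLocalRing.ResidueField A) (FRes A M)] in
/-- a function of `L(a (y)_∞)` over `kW` is regular (over `kA`) wherever `J₀` is, if `y` is regular
wherever `J₀` is -/
theorem mem_regAway_of_mem_rr_resW (hq' : q.Prime) (hA' : A.LiesOverPrime q)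
    {z y J₀ : FRes A M} {Q₂ : Divisor kW (FRes A M)} {a : ℕ}
    (hz : z ∈ riemannRochSpace (LSb.Core.lin2 (polesOf (K := kW) y) Q₂ (a : ℤ) ((0 : ℕ) : ℤ)))
    (hJy : ∀ Q : Place kA (FRes A M), 0 ≤ Q.ord J₀ → 0 ≤ Q.ord y) :
    z ∈ regAway kA J₀ := by
  intro Q hQ
  have hQ0 : 0 ≤ Q.ord J₀ := FF.ord_nonneg_of_mem Q hQ
  rw [FF.mem_iff_ord_nonneg]
  rcases mem_riemannRochSpace_iff.1 hz ((constIso hq' hA' M).place Q) with rfl | h
  · rw [Place.ord_zero]
  · rw [LSb.Core.lin2_apply, polesOf_apply, J.ConstIso.ord_place, J.ConstIso.ord_place,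
      max_eq_right (by have := hJy Q hQ0; omega)] at h
    simpa using h

/-! ### (GLUE) at the triple points -/

/-- **(GLUE) for the modular thick datum at the triple point `c`**, for the cusp ring. -/
theorem glueAt_modThick {gM : ℕ} (hFk : IsCurveOfGenus kA (FRes A M) gM)
    (hred : RedJ V₁ V₂ V₃) (h : CuspRingHyp (modThick M q A hqM hA V₁ V₂ V₃))
    {Vq : FRes A M →+* FRes A M}
    {WM : Norm.Place (fixF M (HI A)) (FRes A M)} {W₁ W₂ : Norm.Place (FMid M q A) (FRes A M)}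
    (hWMm : ∀ y : fixF M (HI A), y ∈ WM.O ↔ (y : FBar M) ∈ (V.gaussDatum M A hqM hA).O)
    (hWMr : ∀ y : fixF M (HI A), WM.redF y = (V.gaussDatum M A hqM hA).redF (y : FBar M))
    (hW₁r : ∀ y : FMid M q A, W₁.redF y = (gaussOne M q A hqM hA).redF (y : FBar (M * q)))
    (hW₂r : ∀ y : FMid M q A, W₂.redF y = (gaussTwo M q A hqM hA).redF (y : FBar (M * q)))
    (T : Rows (alphaFixM M q (HI A)) (betaFixM M q (HI A)) (alphaFix M q (HI A))
      (betaFix M q (HI A)) Vq WM W₁ W₂ (pl₁ (modThick M q A hqM hA V₁ V₂ V₃))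
      (pl₂ (modThick M q A hqM hA V₁ V₂ V₃)) (pl₃ (modThick M q A hqM hA V₁ V₂ V₃)))
    (chart₁ : ∀ (a b : ℕ) (f : FTop M q A), f ∈ (modThick M q A hqM hA V₁ V₂ V₃).𝓛 a b →
      f ∈ (modThick M q A hqM hA V₁ V₂ V₃).O → (modThick M q A hqM hA V₁ V₂ V₃).V₁.redF f ∈
        riemannRochSpace ((modThick M q A hqM hA V₁ V₂ V₃).chartDiv₁ a b))
    (chart₂ : ∀ (a b : ℕ) (f : FTop M q A), f ∈ (modThick M q A hqM hA V₁ V₂ V₃).𝓛 a b →
      f ∈ (modThick M q A hqM hA V₁ V₂ V₃).O → (modThick M q A hqM hA V₁ V₂ V₃).red₂ f ∈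
        riemannRochSpace ((modThick M q A hqM hA V₁ V₂ V₃).chartDiv₂ a b))
    (chart₃ : ∀ (a b : ℕ) (f : FTop M q A), f ∈ (modThick M q A hqM hA V₁ V₂ V₃).𝓛 a b →
      f ∈ (modThick M q A hqM hA V₁ V₂ V₃).O → (modThick M q A hqM hA V₁ V₂ V₃).V₃.redF f ∈
        riemannRochSpace ((modThick M q A hqM hA V₁ V₂ V₃).chartDiv₃ a b))
    (c : Fin (nS M q A hqM hA)) :
    GlueAt (pl₁ (modThick M q A hqM hA V₁ V₂ V₃)) (pl₂ (modThick M q A hqM hA V₁ V₂ V₃))
      (pl₃ (modThick M q A hqM hA V₁ V₂ V₃)) (triplePt M q A hqM hA c) (triplePt M q A hqM hA c)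
      (triplePt M q A hqM hA c) (cuspRing h : Set (FTop M q A)) := by
  classical
  have hjreg : ∀ Q : Place kA (FRes A M), 0 ≤ Q.ord (Gink.jK A M) →
      0 ≤ Q.ord ((Gink.jK A M ^ q) ^ q) := by
    intro Q hQ
    rw [Cech.ord_pow, Cech.ord_pow]
    positivity
  refine glueAt_of_rows T (triplePt M q A hqM hA c) ?_ (cuspRing h)
    ((regAway Qb (Gin0.jF M)).comap (fixF M (HI A)).subtype) (regAway kA (Gink.jK A M))
    ?_ ?_ ?_ ?_ ?_ ?_ ?_ ?_ ?_ (π₀ := ((q : ℕ) : FMid M q A)) (X := X0K M q (HI A))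
    (Y := Y0K M q (HI A)) (H := H₂ (gaussOne M q A hqM hA)) (m := 12)
    (natCast_ne_zero_fixF M q (HI A)) (X0K_mul_Y0K M q (HI A)) ?_ ?_
    (H₂_gaussOne_ne_zero M q A hqM hA) ?_ ?_ ?_
  · -- degree of the triple point
    rw [triplePt, J.ConstIso.deg_place]
    exact hFk.deg_eq_one _
  · -- pull back along `α α`
    intro y hy
    refine mem_cuspRing_modThick h _ ?_
    exact heckeAlphaBar_mem_regAway (M * q) q (heckeAlphaBar_mem_regAway M q hy)
  · -- pull back along `β β`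
    intro y hy
    refine mem_cuspRing_modThick h _ ?_
    exact heckeBetaBar_mem_regAway (M * q) q (heckeBetaBar_mem_regAway M q hy)
  · -- CHART 1
    intro f hf
    obtain ⟨⟨a, ha⟩, hO⟩ := mem_ball_cuspRing.1 hf
    have h1 := chart₁ a 0 f ha hO
    rw [ThickDatum.chartDiv₁, modThick_Q₁₁ hred] at h1
    exact mem_regAway_of_mem_rr_resW hq.out hA h1 (fun Q hQ => hQ)
  · -- CHART 2
    intro f hf
    obtain ⟨⟨a, ha⟩, hO⟩ := mem_ball_cuspRing.1 hf
    have h1 := chart₂ a 0 f ha hO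
    rw [ThickDatum.chartDiv₂, modThick_Q₁₂ hred] at h1
    exact mem_regAway_of_mem_rr_resW hq.out hA h1 (fun Q hQ => hQ)
  · -- CHART 3
    intro f hf
    obtain ⟨⟨a, ha⟩, hO⟩ := mem_ball_cuspRing.1 hf
    have h1 := chart₃ a 0 f ha hO
    rw [ThickDatum.chartDiv₃, modThick_Q₁₃ hred] at h1
    exact mem_regAway_of_mem_rr_resW hq.out hA h1 hjreg
  · -- regularity at the triple point
    intro z hz
    exact hz (ssPt M q A hqM hA c) (jK_mem_triplePt (hqM := hqM) (hA := hA) c)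
  · -- the level `M` lifting
    intro z hz
    obtain ⟨f, hfO, hfreg, hfred⟩ := exists_liftM_fix hqM hA z
      (fun Q hQ => FF.ord_nonneg_of_mem Q (hz Q (FF.mem_of_ord_nonneg Q hQ)))
    refine ⟨f, fun P hP => FF.mem_of_ord_nonneg P (hfreg P (FF.ord_nonneg_of_mem P hP)),
      (hWMm f).2 hfO, ?_⟩
    rw [hWMr, ← gaussMK_redF, hfred]
  · exact Norm.isArch_ofGauss V₁ (Norm.rankOneDvd_Wfix hq.out hA)
  · exact Norm.isArch_ofGauss V₃ (Norm.rankOneDvd_Wfix hq.out hA)
  · -- `red₁₀ (Y / q¹²) = H⁻¹`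
    rw [hW₁r, ← gaussOneK_redF]
    exact gaussOneK_redF_Y0K_div M q A hqM hA
  · -- `red₀₁ Y = H`
    rw [hW₂r, ← gaussTwoK_redF]
    exact gaussTwoK_redF_Y0K M q A hqM hA
  · -- `(β Y)⁻¹` is regular off the cusps
    rw [← map_inv₀]
    refine mem_cuspRing_modThick h _ ?_
    exact heckeBetaBar_mem_regAway (M * q) q (coe_Y0K_inv_mem_regAway M q (HI A))
  · -- `(α X)⁻¹` is regular off the cusps
    rw [← map_inv₀]
    refine mem_cuspRing_modThick h _ ?_
    exact heckeAlphaBar_mem_regAway (M * q) q (coe_X0K_inv_mem_regAway M q (HI A))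
  · -- the Hasse function vanishes at the triple point
    exact (ssPt_mem (hqM := hqM) (hA := hA) c).2

/-! ### the field `glue` -/

/-- the second chart function `w = j - c₀` -/
def wTop (M q : ℕ) [NeZero M] [NeZero q] [Fact q.Prime] (A : ValuationSubring Qb)
    (hqM : ¬ q ∣ M) (hA : A.LiesOverPrime q) : FTop M q A :=
  jTop M q A - algebraMap (Kfix A) (FTop M q A) ((c0W M q A hqM hA : Wfix A) : Kfix A)

theorem coe_wTop : ((wTop M q A hqM hA : FTop M q A) : FB (M * q * q)) =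
    ((jTop M q A : FTop M q A) : FB (M * q * q)) - algebraMap Qb (FB (M * q * q))
      (algebraMap (fixK (HI A)) Qb ((c0W M q A hqM hA : Wfix A) : Kfix A)) := rfl

omit [HasPrincipalDivisors (IsLocalRing.ResidueField A) (FRes A M)]
  [HasPrincipalDivisors (IsLocalRing.ResidueField (Wfix A)) (FRes A M)] in
theorem jK_sub_const_ne_zero (x : kW) :
    Gink.jK A M - algebraMap kW (FRes A M) x ≠ 0 := by
  intro h0
  have htr := Gink.transcendental_jK A M
  rw [algebraMap_resW, sub_eq_zero] at h0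
  apply htr
  rw [h0]
  exact isAlgebraic_algebraMap _

/-- the reductions of `w = j - c₀` -/
theorem modThick_red_wTop (hred : RedJ V₁ V₂ V₃) :
    wTop M q A hqM hA ∈ (modThick M q A hqM hA V₁ V₂ V₃).O ∧
      (modThick M q A hqM hA V₁ V₂ V₃).red₂ (wTop M q A hqM hA) =
        Gink.jK A M - algebraMap kW (FRes A M) (residue (Wfix A) (c0W M q A hqM hA)) := by
  have hj0 : Gink.jK A M ≠ 0 := by
    have := jK_sub_const_ne_zero (A := A) (M := M) 0
    rwa [map_zero, sub_zero] at this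
  have hc : ((c0W M q A hqM hA : Wfix A) : Kfix A) ∈ Wfix A := (c0W M q A hqM hA).2
  -- `j` is integral for the three valuations
  have hj1 : jTop M q A ∈ V₁.O :=
    (ofGauss V₁).mem_of_redF_ne_zero (by
      show V₁.redF (jTop M q A) ≠ 0
      rw [hred.red₁]; exact hj0)
  have hj2 : jTop M q A ∈ V₂.O :=
    (ofRamGauss V₂).mem_of_redF_ne_zero (by
      show ramRedF V₂ (jTop M q A) ≠ 0
      rw [hred.red₂]; exact hj0)
  have hj3 : jTop M q A ∈ V₃.O :=
    (ofGauss V₃).mem_of_redF_ne_zero (by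
      show V₃.redF (jTop M q A) ≠ 0
      rw [hred.red₃]; exact pow_ne_zero _ (pow_ne_zero _ hj0))
  have hc1 := (V₁.algebraMap_mem_iff _).2 hc
  have hc2 := (V₂.algebraMap_mem_iff _).2 hc
  have hc3 := (V₃.algebraMap_mem_iff _).2 hc
  refine ⟨ThickDatum.mem_O.2 ⟨V₁.O.sub_mem hj1 hc1, V₂.O.sub_mem hj2 hc2,
    V₃.O.sub_mem hj3 hc3⟩, ?_⟩
  show (ofRamGauss V₂).redF (wTop M q A hqM hA) = _
  rw [wTop, (ofRamGauss V₂).redF_sub hj2 hc2]
  congr 1
  · exact hred.red₂
  · rw [(ofRamGauss V₂).redF_of_mem hc2]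
    exact V₂.red_algebraMap (c0W M q A hqM hA) hc2

/-- **the field `glue` of `ThickCtx` / `Reg.ThickBase` for the modular thick datum.** -/
theorem modThick_glue {gM : ℕ} (hFk : IsCurveOfGenus kA (FRes A M) gM)
    {g : ℕ} (hF : IsCurveOfGenus Qb (FB (M * q * q)) g)
    (hred : RedJ V₁ V₂ V₃)
    {Vq : FRes A M →+* FRes A M}
    {WM : Norm.Place (fixF M (HI A)) (FRes A M)} {W₁ W₂ : Norm.Place (FMid M q A) (FRes A M)}
    (hWMm : ∀ y : fixF M (HI A), y ∈ WM.O ↔ (y : FBar M) ∈ (V.gaussDatum M A hqM hA).O)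
    (hWMr : ∀ y : fixF M (HI A), WM.redF y = (V.gaussDatum M A hqM hA).redF (y : FBar M))
    (hW₁r : ∀ y : FMid M q A, W₁.redF y = (gaussOne M q A hqM hA).redF (y : FBar (M * q)))
    (hW₂r : ∀ y : FMid M q A, W₂.redF y = (gaussTwo M q A hqM hA).redF (y : FBar (M * q)))
    (T : Rows (alphaFixM M q (HI A)) (betaFixM M q (HI A)) (alphaFix M q (HI A))
      (betaFix M q (HI A)) Vq WM W₁ W₂ (pl₁ (modThick M q A hqM hA V₁ V₂ V₃))
      (pl₂ (modThick M q A hqM hA V₁ V₂ V₃)) (pl₃ (modThick M q A hqM hA V₁ V₂ V₃)))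
    (chart₁ : ∀ (a b : ℕ) (f : FTop M q A), f ∈ (modThick M q A hqM hA V₁ V₂ V₃).𝓛 a b →
      f ∈ (modThick M q A hqM hA V₁ V₂ V₃).O → (modThick M q A hqM hA V₁ V₂ V₃).V₁.redF f ∈
        riemannRochSpace ((modThick M q A hqM hA V₁ V₂ V₃).chartDiv₁ a b))
    (chart₂ : ∀ (a b : ℕ) (f : FTop M q A), f ∈ (modThick M q A hqM hA V₁ V₂ V₃).𝓛 a b →
      f ∈ (modThick M q A hqM hA V₁ V₂ V₃).O → (modThick M q A hqM hA V₁ V₂ V₃).red₂ f ∈
        riemannRochSpace ((modThick M q A hqM hA V₁ V₂ V₃).chartDiv₂ a b))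
    (chart₃ : ∀ (a b : ℕ) (f : FTop M q A), f ∈ (modThick M q A hqM hA V₁ V₂ V₃).𝓛 a b →
      f ∈ (modThick M q A hqM hA V₁ V₂ V₃).O → (modThick M q A hqM hA V₁ V₂ V₃).V₃.redF f ∈
        riemannRochSpace ((modThick M q A hqM hA V₁ V₂ V₃).chartDiv₃ a b)) :
    ∀ (a b : ℕ) (f : FTop M q A), f ∈ (modThick M q A hqM hA V₁ V₂ V₃).𝓛 a b →
      f ∈ (modThick M q A hqM hA V₁ V₂ V₃).O → ∀ c, ∃ α : kW,
        HasValueAt ((modThick M q A hqM hA V₁ V₂ V₃).x₁ c)
          ((modThick M q A hqM hA V₁ V₂ V₃).V₁.redF f) α ∧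
        HasValueAt ((modThick M q A hqM hA V₁ V₂ V₃).x₂ c)
          ((modThick M q A hqM hA V₁ V₂ V₃).red₂ f) α ∧
        HasValueAt ((modThick M q A hqM hA V₁ V₂ V₃).x₃ c)
          ((modThick M q A hqM hA V₁ V₂ V₃).V₃.redF f) α := by
  have hP := hasPrincipalDivisors_FB (M * q * q)
  have h := cuspRingHyp_modThick (hqM := hqM) (hA := hA) (V₁ := V₁) (V₂ := V₂) (V₃ := V₃) hF
  obtain ⟨hwO, hwred⟩ := modThick_red_wTop (hqM := hqM) (hA := hA) hred
  have hwne : (modThick M q A hqM hA V₁ V₂ V₃).red₂ (wTop M q A hqM hA) ≠ 0 := by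
    rw [hwred]; exact jK_sub_const_ne_zero _
  have hw0 : ((wTop M q A hqM hA : FTop M q A) : FB (M * q * q)) ≠ 0 := by
    intro h0
    apply hwne
    have : wTop M q A hqM hA = 0 := Subtype.ext h0
    rw [this]
    exact (ofRamGauss V₂).redF_zero
  have hwreg : ((wTop M q A hqM hA : FTop M q A) : FB (M * q * q)) ∈
      regAway Qb ((jTop M q A : FTop M q A) : FB (M * q * q)) := by
    rw [coe_wTop]
    exact (regAway Qb _).sub_mem (LSb.Unit.self_mem_regAway _) (LSb.Unit.algebraMap_mem_regAway _ _)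
  refine glue_field h
    (fun c => glueAt_modThick hFk hred h hWMm hWMr hW₁r hW₂r T chart₁ chart₂ chart₃ c)
    (w := wTop M q A hqM hA) ?_ hwO ?_ hwne ?_
  · -- `w` is regular off the cusps
    refine mem_cuspRing_modThick h _ ?_
    rw [← coe_jTop (M := M) (q := q) (A := A)]
    exact hwreg
  · -- `f w^b` is regular off the cusps
    intro a b f hf
    rw [modThick_𝓛, mem_chartL] at hf
    have hf' : (f : FB (M * q * q)) ∈ riemannRochSpace
        ((a : ℤ) • polesOf (K := Qb) ((jTop M q A : FTop M q A) : FB (M * q * q)) +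
          (b : ℤ) • zerosOf (K := Qb) ((wTop M q A hqM hA : FTop M q A) : FB (M * q * q))) := hf
    have h1 := LSb.Unit.mul_pow_mem_regAway hw0 hwreg a b hf'
    rw [coe_jTop] at h1
    exact mem_cuspRing_modThick h (f * wTop M q A hqM hA ^ b) h1
  · -- `w̄⁻¹` is regular at the triple points
    intro c
    rw [hwred]
    have h1 := not_hasValueAt_triplePt₁ (hqM := hqM) (hA := hA) c
    have hne := jK_sub_const_ne_zero (A := A) (M := M)
      (residue (Wfix A) (c0W M q A hqM hA))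
    rw [← Tame.adicValuation_le_one_iff_mem, map_inv₀]
    rw [not_lt] at h1
    exact inv_le_one_of_one_le₀ h1

end Fermat.Agent.S36lib.Fin
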